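import Fermat.Agent.S26.Alg.TensorDomain
import Fermat.Agent.S26.FF.Basic

/-! # S26 / M2 : constant field extensions of a curve: DEFINITIONS (sorry-free).

`K` algebraically closed, `FC/K` a function field of one variable ("the curve `C`"), `Ω/K` any field.
`CF K Ω FC = Frac (Ω ⊗[K] FC)` is the function field of `C_Ω`; it is an `Ω`-algebra (left factor). -/

set_option autoImplicit false

universe u

namespace Fermat.Agent.S26

open AlgebraicCurve TensorProduct

variable (K : Type u) [Field K] [IsAlgClosed K]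

/-- the function field `Ω(C)` of the curve `C` (function field `FC`) over the constant field `Ω` -/
abbrev CF (Ω FC : Type u) [Field Ω] [Algebra K Ω] [Field FC] [Algebra K FC] : Type u :=
  FractionRing (Ω ⊗[K] FC)

namespace CF

variable (Ω FC : Type u) [Field Ω] [Algebra K Ω] [Field FC] [Algebra K FC]

/-- `FC → Ω(C)` -/
noncomputable def inr : FC →ₐ[K] CF K Ω FC :=
  (IsScalarTower.toAlgHom K (Ω ⊗[K] FC) (CF K Ω FC)).comp Algebra.TensorProduct.includeRight

/-- `Ω → Ω(C)` -/
noncomputable def inl : Ω →ₐ[K] CF K Ω FC := IsScalarTower.toAlgHom K Ω (CF K Ω FC)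

/-- `Ω ⊗ FC → Ω(C)` -/
noncomputable def ofTensor : Ω ⊗[K] FC →ₐ[Ω] CF K Ω FC := IsScalarTower.toAlgHom Ω (Ω ⊗[K] FC) (CF K Ω FC)

variable {K Ω FC}

theorem ofTensor_injective : Function.Injective (ofTensor K Ω FC) :=
  IsFractionRing.injective _ _

end CF

variable {K}
variable {Ω FC : Type u} [Field Ω] [Algebra K Ω] [Field FC] [Algebra K FC]

/-- the valuation ring of `FC` induced by a place of `Ω(C)` -/
noncomputable def traceFC (Q : Place Ω (CF K Ω FC)) : ValuationSubring FC :=
  Q.toValuationSubring.comap (CF.inr K Ω FC).toRingHom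

/-- `Q` is a non-constant point of `C_Ω` -/
def IsNonconst (Q : Place Ω (CF K Ω FC)) : Prop := traceFC Q = ⊤

end Fermat.Agent.S26
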