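import Fermat.Agent.S26.Curve.CF

/-! # S26 / M2a : basic properties of `CF K Ω FC = Frac (Ω ⊗[K] FC)`. -/

set_option autoImplicit false

universe u

namespace Fermat.Agent.S26

open AlgebraicCurve TensorProduct

variable {K : Type u} [Field K] [IsAlgClosed K]
variable {Ω FC : Type u} [Field Ω] [Algebra K Ω] [Field FC] [Algebra K FC]

namespace CF

theorem ofTensor_tmul (ω : Ω) (a : FC) :
    ofTensor K Ω FC (ω ⊗ₜ a) = algebraMap Ω (CF K Ω FC) ω * inr K Ω FC a := by
  have h : (ω ⊗ₜ[K] a : Ω ⊗[K] FC) = algebraMap Ω (Ω ⊗[K] FC) ω * (1 ⊗ₜ a) := by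
    rw [Algebra.TensorProduct.algebraMap_apply, Algebra.TensorProduct.tmul_mul_tmul]
    simp
  rw [h, map_mul, AlgHom.commutes]
  rfl

theorem ofTensor_eq_algebraMap (t : Ω ⊗[K] FC) : ofTensor K Ω FC t = algebraMap (Ω ⊗[K] FC) (CF K Ω FC) t := rfl

theorem inl_eq_algebraMap (ω : Ω) : inl K Ω FC ω = algebraMap (Ω ⊗[K] FC) (CF K Ω FC) (ω ⊗ₜ 1) := rfl

theorem inr_eq_algebraMap (a : FC) : inr K Ω FC a = algebraMap (Ω ⊗[K] FC) (CF K Ω FC) (1 ⊗ₜ a) := rfl

/-- universal property: two `K`-embeddings with "independent" images. -/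
theorem exists_lift {E : Type u} [Field E] [Algebra K E] (i : Ω →ₐ[K] E) (j : FC →ₐ[K] E)
    (h : Function.Injective (Algebra.TensorProduct.productMap i j)) :
    ∃ φ : CF K Ω FC →ₐ[K] E, φ.comp (inl K Ω FC) = i ∧ φ.comp (inr K Ω FC) = j := by
  refine ⟨IsFractionRing.liftAlgHom (K := CF K Ω FC) h, ?_, ?_⟩
  · ext ω
    rw [AlgHom.comp_apply, inl_eq_algebraMap, IsFractionRing.liftAlgHom_apply, IsFractionRing.lift_algebraMap]
    simp
  · ext a
    rw [AlgHom.comp_apply, inr_eq_algebraMap, IsFractionRing.liftAlgHom_apply, IsFractionRing.lift_algebraMap]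
    simp

theorem algHom_ext {E : Type u} [Field E] [Algebra K E] {φ ψ : CF K Ω FC →ₐ[K] E}
    (h1 : φ.comp (inl K Ω FC) = ψ.comp (inl K Ω FC)) (h2 : φ.comp (inr K Ω FC) = ψ.comp (inr K Ω FC)) :
    φ = ψ := by
  apply IsLocalization.algHom_ext (nonZeroDivisors (Ω ⊗[K] FC))
  apply Algebra.TensorProduct.ext'
  intro ω a
  have e : (ω ⊗ₜ[K] a : Ω ⊗[K] FC) = (ω ⊗ₜ 1) * (1 ⊗ₜ a) := by
    rw [Algebra.TensorProduct.tmul_mul_tmul]; simp
  have h1' := congrArg (fun g => g ω) h1
  have h2' := congrArg (fun g => g a) h2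
  simp only [AlgHom.comp_apply, inl_eq_algebraMap, inr_eq_algebraMap] at h1' h2'
  simp only [AlgHom.comp_apply]
  rw [e, map_mul, map_mul, map_mul]
  exact congrArg₂ (· * ·) h1' h2'

theorem algebraicIndependent_inr {ι : Type*} {x : ι → FC} (hx : AlgebraicIndependent K x) :
    AlgebraicIndependent Ω (fun i => inr K Ω FC (x i)) := by
  have h1 : Function.Injective (Algebra.TensorProduct.map (AlgHom.id Ω Ω)
      (MvPolynomial.aeval x : MvPolynomial ι K →ₐ[K] FC)) :=
    Module.Flat.lTensor_preserves_injective_linearMap (M := Ω)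
      (MvPolynomial.aeval x : MvPolynomial ι K →ₐ[K] FC).toLinearMap hx
  have h2 : (MvPolynomial.aeval (fun i => inr K Ω FC (x i)) : MvPolynomial ι Ω →ₐ[Ω] CF K Ω FC) =
      (ofTensor K Ω FC).comp ((Algebra.TensorProduct.map (AlgHom.id Ω Ω)
        (MvPolynomial.aeval x : MvPolynomial ι K →ₐ[K] FC)).comp
          (MvPolynomial.algebraTensorAlgEquiv K Ω).symm.toAlgHom) := by
    apply MvPolynomial.algHom_ext
    intro i
    simp [MvPolynomial.algebraTensorAlgEquiv_symm_X, ofTensor_tmul]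
  show Function.Injective (MvPolynomial.aeval (fun i => inr K Ω FC (x i)) :
    MvPolynomial ι Ω →ₐ[Ω] CF K Ω FC)
  rw [h2]
  exact ofTensor_injective.comp (h1.comp (MvPolynomial.algebraTensorAlgEquiv K Ω).symm.injective)

theorem isAlgebraic_of_inr_mem {ι : Type*} {x : ι → FC}
    (hx : Algebra.IsAlgebraic (Algebra.adjoin K (Set.range x)) FC)
    (Ay : Subalgebra Ω (CF K Ω FC)) (hAy : ∀ i, inr K Ω FC (x i) ∈ Ay) :
    Algebra.IsAlgebraic Ay (CF K Ω FC) := by
  -- the map `Ax → Ay`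
  have hmem : ∀ a ∈ Algebra.adjoin K (Set.range x), inr K Ω FC a ∈ Ay := by
    intro a ha
    induction ha using Algebra.adjoin_induction with
    | mem a ha => obtain ⟨i, rfl⟩ := ha; exact hAy i
    | algebraMap r =>
      rw [AlgHom.commutes, IsScalarTower.algebraMap_apply K Ω]; exact Ay.algebraMap_mem _
    | add a b _ _ ha hb => rw [map_add]; exact add_mem ha hb
    | mul a b _ _ ha hb => rw [map_mul]; exact mul_mem ha hb
  let fxy : Algebra.adjoin K (Set.range x) →+* Ay :=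
    { toFun := fun a => ⟨inr K Ω FC a.1, hmem a.1 a.2⟩
      map_one' := Subtype.ext (map_one _)
      map_mul' := fun a b => Subtype.ext (map_mul _ _ _)
      map_zero' := Subtype.ext (map_zero _)
      map_add' := fun a b => Subtype.ext (map_add _ _ _) }
  have hfinj : Function.Injective fxy := by
    intro a b hab
    have h1 : inr K Ω FC a.1 = inr K Ω FC b.1 := congrArg Subtype.val hab
    exact Subtype.ext ((inr K Ω FC).toRingHom.injective h1)
  have hinr : ∀ c : FC, IsAlgebraic Ay (inr K Ω FC c) := by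
    intro c
    exact (hx.isAlgebraic c).ringHom_of_comp_eq fxy (inr K Ω FC).toRingHom hfinj rfl
  have hΩ : ∀ ω : Ω, IsAlgebraic Ay (algebraMap Ω (CF K Ω FC) ω) := by
    intro ω
    exact isAlgebraic_algebraMap (⟨algebraMap Ω (CF K Ω FC) ω, Ay.algebraMap_mem ω⟩ : Ay)
  have hT : ∀ t : Ω ⊗[K] FC, IsAlgebraic Ay (algebraMap (Ω ⊗[K] FC) (CF K Ω FC) t) := by
    intro t
    induction t using TensorProduct.induction_on with
    | zero => rw [map_zero]; exact isAlgebraic_zero
    | tmul ω c =>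
      have := ofTensor_tmul (K := K) ω c
      rw [show algebraMap (Ω ⊗[K] FC) (CF K Ω FC) (ω ⊗ₜ c) = ofTensor K Ω FC (ω ⊗ₜ c) from rfl, this]
      exact (hΩ ω).mul (hinr c)
    | add a b ha hb => rw [map_add]; exact ha.add hb
  constructor
  intro z
  obtain ⟨a, b, hb, rfl⟩ := IsFractionRing.div_surjective (A := Ω ⊗[K] FC) z
  rw [div_eq_mul_inv]
  exact (hT a).mul (hT b).inv

theorem isTranscendenceBasis_inr {ι : Type*} {x : ι → FC} (hx : IsTranscendenceBasis K x) :
    IsTranscendenceBasis Ω (fun i => inr K Ω FC (x i)) :=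
  (algebraicIndependent_inr hx.1).isTranscendenceBasis_iff_isAlgebraic.mpr
    (isAlgebraic_of_inr_mem hx.isAlgebraic _ (fun i => Algebra.subset_adjoin ⟨i, rfl⟩))

theorem trdeg_left : Algebra.trdeg Ω (CF K Ω FC) = Algebra.trdeg K FC := by
  obtain ⟨s, hs⟩ := exists_isTranscendenceBasis K FC
  rw [← hs.cardinalMk_eq_trdeg, ← (isTranscendenceBasis_inr (Ω := Ω) hs).cardinalMk_eq_trdeg]

end CF

/-- `Ω(C)/Ω` is a function field of one variable. -/
instance ff1_CF [FF1 K FC] : FF1 Ω (CF K Ω FC) where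
  essFiniteType := by
    have := FF1.essFiniteType (Ω := K) (𝕃 := FC)
    have : Algebra.EssFiniteType (Ω ⊗[K] FC) (CF K Ω FC) :=
      Algebra.EssFiniteType.of_isLocalization _ (nonZeroDivisors (Ω ⊗[K] FC))
    exact Algebra.EssFiniteType.comp Ω (Ω ⊗[K] FC) (CF K Ω FC)
  trdeg_eq_one := by rw [CF.trdeg_left, FF1.trdeg_eq_one]

/-- trdeg is additive -/
theorem trdeg_CF (Ω FC : Type u) [Field Ω] [Algebra K Ω] [Field FC] [Algebra K FC] :
    Algebra.trdeg K (CF K Ω FC) = Algebra.trdeg K Ω + Algebra.trdeg K FC := by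
  rw [← CF.trdeg_left (K := K) (Ω := Ω) (FC := FC)]
  exact (_root_.trdeg_add_eq K Ω (A := CF K Ω FC)).symm

instance essFiniteType_CF [Algebra.EssFiniteType K Ω] [Algebra.EssFiniteType K FC] :
    Algebra.EssFiniteType K (CF K Ω FC) := by
  have : Algebra.EssFiniteType (Ω ⊗[K] FC) (CF K Ω FC) :=
    Algebra.EssFiniteType.of_isLocalization _ (nonZeroDivisors (Ω ⊗[K] FC))
  have : Algebra.EssFiniteType Ω (CF K Ω FC) :=
    Algebra.EssFiniteType.comp Ω (Ω ⊗[K] FC) (CF K Ω FC)
  exact Algebra.EssFiniteType.comp K Ω (CF K Ω FC)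

/-- residue fields of places of `FC/K` are `K` -/
theorem bijective_algebraMap_residueField [FF1 K FC] (c : Place K FC) :
    Function.Bijective (algebraMap K c.ResidueField) := by
  have := finite_residueField c
  exact IsAlgClosed.algebraMap_bijective_of_isIntegral

/-- `κ(c) ≃ K` -/
noncomputable def resEquiv [FF1 K FC] (c : Place K FC) : c.ResidueField ≃ₐ[K] K :=
  (AlgEquiv.ofBijective (Algebra.ofId K c.ResidueField) (bijective_algebraMap_residueField c)).symm

end Fermat.Agent.S26
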