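import Fermat.Agent.S26.StepA

/-! # S26 : more lemmas on `CF K Ω FC = Frac (Ω ⊗[K] FC)` (characterisation, injectivity of product maps). -/

set_option autoImplicit false

universe u

namespace Fermat.Agent.S26

open AlgebraicCurve IsLocalRing

variable {K : Type u} [Field K] [IsAlgClosed K]

namespace TopAlg

open TensorProduct

section CFlemmas

variable {Ω FC T : Type u} [Field Ω] [Algebra K Ω] [Field FC] [Algebra K FC] [Field T] [Algebra K T]

/-- `CF K Ω FC` is characterised by: free compositum generated by the two factors. -/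
theorem exists_equiv_CF (i : Ω →ₐ[K] T) (j : FC →ₐ[K] T)
    (h : Function.Injective (Algebra.TensorProduct.productMap i j))
    (hgen : i.fieldRange ⊔ j.fieldRange = ⊤) :
    ∃ e : CF K Ω FC ≃ₐ[K] T, e.toAlgHom.comp (CF.inl K Ω FC) = i ∧
      e.toAlgHom.comp (CF.inr K Ω FC) = j := by
  obtain ⟨φ, h1, h2⟩ := CF.exists_lift i j h
  have hsurj : Function.Surjective φ := by
    have h3 : φ.fieldRange = ⊤ := by
      rw [eq_top_iff, ← hgen]
      apply sup_le
      · rintro _ ⟨a, rfl⟩
        exact ⟨CF.inl K Ω FC a, by rw [← h1]; rfl⟩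
      · rintro _ ⟨a, rfl⟩
        exact ⟨CF.inr K Ω FC a, by rw [← h2]; rfl⟩
    intro z
    have : z ∈ φ.fieldRange := by rw [h3]; trivial
    exact this
  exact ⟨AlgEquiv.ofBijective φ ⟨φ.toRingHom.injective, hsurj⟩, h1, h2⟩

/-- the canonical product map is `ofTensor` -/
theorem productMap_inl_inr (z : Ω ⊗[K] FC) :
    Algebra.TensorProduct.productMap (CF.inl K Ω FC) (CF.inr K Ω FC) z = CF.ofTensor K Ω FC z := by
  induction z using TensorProduct.induction_on with
  | zero => simp
  | tmul a b => rw [Algebra.TensorProduct.productMap_apply_tmul, CF.ofTensor_tmul]; rfl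
  | add a b ha hb => rw [map_add, map_add, ha, hb]

theorem productMap_inl_inr_injective :
    Function.Injective (Algebra.TensorProduct.productMap (CF.inl K Ω FC) (CF.inr K Ω FC)) := by
  intro a b hab
  rw [productMap_inl_inr, productMap_inl_inr] at hab
  exact CF.ofTensor_injective hab

end CFlemmas

section general

variable {A A' B B' T : Type u} [CommRing A] [Algebra K A] [CommRing A'] [Algebra K A']
  [CommRing B] [Algebra K B] [CommRing B'] [Algebra K B'] [CommRing T] [Algebra K T]

omit [IsAlgClosed K] in
/-- precomposing an injective product map with injective maps -/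
theorem productMap_comp_injective (i : A' →ₐ[K] T) (j : B' →ₐ[K] T) (f : A →ₐ[K] A') (g : B →ₐ[K] B')
    (h : Function.Injective (Algebra.TensorProduct.productMap i j)) (hf : Function.Injective f)
    (hg : Function.Injective g) :
    Function.Injective (Algebra.TensorProduct.productMap (i.comp f) (j.comp g)) := by
  have h1 : ∀ z, Algebra.TensorProduct.productMap (i.comp f) (j.comp g) z
      = Algebra.TensorProduct.productMap i j (TensorProduct.map f.toLinearMap g.toLinearMap z) := by
    intro z
    induction z using TensorProduct.induction_on with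
    | zero => simp
    | tmul a b => simp
    | add a b ha hb => rw [map_add, map_add, map_add, ha, hb]
  have h2 : Function.Injective (TensorProduct.map f.toLinearMap g.toLinearMap) :=
    TensorProduct.map_injective_of_flat_flat _ _ hf hg
  intro a b hab
  rw [h1, h1] at hab
  exact h2 (h hab)

end general

section localisation

variable {R Q B T : Type u} [CommRing R] [IsDomain R] [Algebra K R] [Field Q] [Algebra K Q]
  [Algebra R Q] [IsScalarTower K R Q] [IsFractionRing R Q] [CommRing B] [Algebra K B]
  [Field T] [Algebra K T]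

omit [IsAlgClosed K] in
/-- clearing denominators in `Frac R ⊗ B` -/
theorem exists_clear_denom (z : Q ⊗[K] B) : ∃ s : R, s ≠ 0 ∧ ∃ w : R ⊗[K] B,
    (algebraMap R Q s ⊗ₜ[K] (1 : B)) * z
      = TensorProduct.map (IsScalarTower.toAlgHom K R Q).toLinearMap LinearMap.id w := by
  induction z using TensorProduct.induction_on with
  | zero => exact ⟨1, one_ne_zero, 0, by simp⟩
  | tmul a b =>
    obtain ⟨r, s, hs, rfl⟩ := IsFractionRing.div_surjective (A := R) a
    have hs0 : s ≠ 0 := nonZeroDivisors.ne_zero hs
    have hs1 : algebraMap R Q s ≠ 0 := by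
      simpa using hs0
    refine ⟨s, hs0, r ⊗ₜ b, ?_⟩
    rw [Algebra.TensorProduct.tmul_mul_tmul, one_mul, TensorProduct.map_tmul]
    congr 1
    field_simp
    rfl
  | add a b ha hb =>
    obtain ⟨s, hs, w, hw⟩ := ha
    obtain ⟨s', hs', w', hw'⟩ := hb
    refine ⟨s * s', mul_ne_zero hs hs', (s' ⊗ₜ 1) * w + (s ⊗ₜ 1) * w', ?_⟩
    have hmul : ∀ (c : R) (v : R ⊗[K] B),
        TensorProduct.map (IsScalarTower.toAlgHom K R Q).toLinearMap LinearMap.id ((c ⊗ₜ 1) * v)
          = (algebraMap R Q c ⊗ₜ[K] (1 : B)) *
            TensorProduct.map (IsScalarTower.toAlgHom K R Q).toLinearMap LinearMap.id v := by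
      intro c v
      induction v using TensorProduct.induction_on with
      | zero => simp
      | tmul x y => simp [Algebra.TensorProduct.tmul_mul_tmul]
      | add x y hx hy => rw [mul_add, map_add, map_add, mul_add, hx, hy]
    rw [map_add, hmul, hmul, ← hw, ← hw', mul_add, map_mul]
    have e : (algebraMap R Q s * algebraMap R Q s') ⊗ₜ[K] (1 : B)
        = (algebraMap R Q s ⊗ₜ[K] (1 : B)) * (algebraMap R Q s' ⊗ₜ[K] (1 : B)) := by
      rw [Algebra.TensorProduct.tmul_mul_tmul, one_mul]
    rw [e]
    ring

omit [IsAlgClosed K] in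
/-- injectivity of a product map can be checked before passing to the fraction field of a factor -/
theorem productMap_injective_of_fractionRing (i : Q →ₐ[K] T) (j : B →ₐ[K] T)
    (h : Function.Injective
      (Algebra.TensorProduct.productMap (i.comp (IsScalarTower.toAlgHom K R Q)) j)) :
    Function.Injective (Algebra.TensorProduct.productMap i j) := by
  rw [injective_iff_map_eq_zero]
  intro z hz
  obtain ⟨s, hs, w, hw⟩ := exists_clear_denom (R := R) z
  have hs1 : algebraMap R Q s ≠ 0 := by simpa using hs
  have h1 : ∀ v : R ⊗[K] B,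
      Algebra.TensorProduct.productMap (i.comp (IsScalarTower.toAlgHom K R Q)) j v
      = Algebra.TensorProduct.productMap i j
        (TensorProduct.map (IsScalarTower.toAlgHom K R Q).toLinearMap LinearMap.id v) := by
    intro v
    induction v using TensorProduct.induction_on with
    | zero => simp
    | tmul a b => simp
    | add a b ha hb => rw [map_add, map_add, map_add, ha, hb]
  have h2 : Algebra.TensorProduct.productMap (i.comp (IsScalarTower.toAlgHom K R Q)) j w = 0 := by
    rw [h1, ← hw, map_mul, hz, mul_zero]
  have h3 : w = 0 := (injective_iff_map_eq_zero _).mp h w h2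
  rw [h3, map_zero] at hw
  have h4 : ((algebraMap R Q s)⁻¹ ⊗ₜ[K] (1 : B)) * ((algebraMap R Q s ⊗ₜ[K] (1 : B)) * z) = z := by
    rw [← mul_assoc, Algebra.TensorProduct.tmul_mul_tmul, inv_mul_cancel₀ hs1, one_mul]
    exact one_mul z
  rw [← h4, hw, mul_zero]

end localisation

end TopAlg

end Fermat.Agent.S26
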