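import Fermat.Agent.S26.Curve.CFBasic

/-! # S26 / M2b : the constant places `c_Ω` of `Ω(C)` (Gauss valuations).

`A := Ω ⊗[K] O_c`, `jA : A → Ω(C)`, `eps : A → Ω` (reduction mod `c`), `ker eps = (1 ⊗ t)` by right exactness.
Existence of a place `Q` over `c`: Chevalley (`exists_place_of_subalgebra`).  For every `Q` with
`traceFC Q = O_c`: `eps f ≠ 0 → ord_Q (jA f) = 0`, every `h ≠ 0` is `t^m * jA f / jA g` with `eps f, eps g ≠ 0`;
so `ord_Q` is determined: uniqueness, degree one, Gauss formula. -/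

set_option autoImplicit false
set_option linter.unusedSectionVars false

universe u

namespace Fermat.Agent.S26

open AlgebraicCurve TensorProduct

variable {K : Type u} [Field K] [IsAlgClosed K]
variable {Ω FC : Type u} [Field Ω] [Algebra K Ω] [Field FC] [Algebra K FC]

namespace ConstAux

variable [FF1 K FC] (Ω) (c : Place K FC)

/-- `Ω ⊗ O_c → Ω(C)` -/
noncomputable def jA : Ω ⊗[K] c.toValuationSubring →ₐ[Ω] CF K Ω FC :=
  (CF.ofTensor K Ω FC).comp
    (Algebra.TensorProduct.map (AlgHom.id Ω Ω) (IsScalarTower.toAlgHom K c.toValuationSubring FC))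

/-- `O_c → K` -/
noncomputable def rho : c.toValuationSubring →ₐ[K] K :=
  (resEquiv c).toAlgHom.comp (IsScalarTower.toAlgHom K c.toValuationSubring c.ResidueField)

/-- `Ω ⊗ O_c → Ω` -/
noncomputable def eps : Ω ⊗[K] c.toValuationSubring →ₐ[Ω] Ω :=
  Algebra.TensorProduct.lift (AlgHom.id Ω Ω) ((Algebra.ofId K Ω).comp (rho c))
    (fun _ _ => Commute.all _ _)

variable {Ω}

theorem jA_tmul (ω : Ω) (a : c.toValuationSubring) :
    jA Ω c (ω ⊗ₜ a) = algebraMap Ω (CF K Ω FC) ω * CF.inr K Ω FC (a : FC) := by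
  simp only [jA, AlgHom.comp_apply, Algebra.TensorProduct.map_tmul, AlgHom.id_apply]
  rw [CF.ofTensor_tmul]
  rfl

theorem eps_tmul (ω : Ω) (a : c.toValuationSubring) :
    eps Ω c (ω ⊗ₜ a) = ω * algebraMap K Ω (rho c a) := by
  simp [eps, Algebra.ofId_apply]

theorem rho_apply (a : c.toValuationSubring) :
    rho c a = resEquiv c (IsLocalRing.residue _ a) := rfl

theorem rho_eq_zero_iff (a : c.toValuationSubring) :
    rho c a = 0 ↔ a = 0 ∨ 0 < c.ord (a : FC) := by
  rw [rho_apply, EmbeddingLike.map_eq_zero_iff]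
  rcases eq_or_ne a 0 with rfl | ha
  · simp
  · rw [Fermat.Agent.S24.FF.DegOne.residue_eq_zero_iff c ha]
    simp [ha]

theorem jA_injective : Function.Injective (jA Ω c) := by
  have h1 : Function.Injective
      (Algebra.TensorProduct.map (AlgHom.id Ω Ω) (IsScalarTower.toAlgHom K c.toValuationSubring FC)) := by
    have := Module.Flat.lTensor_preserves_injective_linearMap (M := Ω)
      (IsScalarTower.toAlgHom K c.toValuationSubring FC).toLinearMap Subtype.val_injective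
    intro x y hxy
    apply this
    exact hxy
  exact CF.ofTensor_injective.comp h1

theorem rho_surjective : Function.Surjective (rho c) := fun k =>
  ⟨algebraMap K _ k, (rho c).commutes k⟩

variable {c}

theorem exact_rho {t : c.toValuationSubring} (ht : Irreducible t) :
    Function.Exact (LinearMap.mulLeft K t) (rho c).toLinearMap := by
  intro y
  show rho c y = 0 ↔ _
  rw [rho_apply, EmbeddingLike.map_eq_zero_iff, IsLocalRing.residue_eq_zero_iff,
    ht.maximalIdeal_eq, Ideal.mem_span_singleton]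
  constructor
  · rintro ⟨z, rfl⟩; exact ⟨z, rfl⟩
  · rintro ⟨z, rfl⟩; exact ⟨z, rfl⟩

theorem eps_eq (x : Ω ⊗[K] c.toValuationSubring) :
    eps Ω c x = TensorProduct.rid K Ω (LinearMap.lTensor Ω (rho c).toLinearMap x) := by
  induction x using TensorProduct.induction_on with
  | zero => simp
  | tmul ω a => simp [eps_tmul, Algebra.smul_def, mul_comm]
  | add x y hx hy => simp only [map_add, hx, hy]

theorem lTensor_mulLeft (t : c.toValuationSubring) (x : Ω ⊗[K] c.toValuationSubring) :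
    LinearMap.lTensor Ω (LinearMap.mulLeft K t) x = (1 ⊗ₜ t) * x := by
  induction x using TensorProduct.induction_on with
  | zero => simp
  | tmul ω a => simp
  | add x y hx hy => simp only [map_add, hx, hy, mul_add]

/-- `ker eps = (1 ⊗ t)` -/
theorem exists_eq_mul_of_eps_eq_zero {t : c.toValuationSubring} (ht : Irreducible t)
    {g : Ω ⊗[K] c.toValuationSubring} (hg : eps Ω c g = 0) :
    ∃ g', g = (1 ⊗ₜ t) * g' := by
  have hex := lTensor_exact Ω (exact_rho ht) (rho_surjective c)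
  rw [eps_eq, EmbeddingLike.map_eq_zero_iff] at hg
  obtain ⟨g', hg'⟩ := (hex g).mp hg
  exact ⟨g', by rw [← hg', lTensor_mulLeft]⟩

section Q

variable {Q : Place Ω (CF K Ω FC)} (hQ : traceFC Q = c.toValuationSubring)

include hQ

theorem inr_mem_iff (a : FC) :
    CF.inr K Ω FC a ∈ Q.toValuationSubring ↔ a ∈ c.toValuationSubring := by
  rw [← hQ, traceFC, ValuationSubring.mem_comap]; rfl

theorem jA_mem (x : Ω ⊗[K] c.toValuationSubring) : jA Ω c x ∈ Q.toValuationSubring := by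
  induction x using TensorProduct.induction_on with
  | zero => rw [map_zero]; exact zero_mem _
  | tmul ω a =>
    rw [jA_tmul]
    exact mul_mem (Q.algebraMap_mem' ω) ((inr_mem_iff hQ _).mpr a.2)
  | add x y hx hy => rw [map_add]; exact add_mem hx hy

theorem ord_inr_pos {a : FC} (ha : 0 < c.ord a) : 0 < Q.ord (CF.inr K Ω FC a) := by
  by_contra hcon
  have h1 : 0 ≤ Q.ord (CF.inr K Ω FC a⁻¹) := by rw [map_inv₀, Q.ord_inv]; omega
  have h2 := (inr_mem_iff hQ _).mp (Fermat.Agent.S24.FF.mem_of_ord_nonneg Q h1)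
  have h3 := Fermat.Agent.S24.FF.ord_nonneg_of_mem c h2
  rw [c.ord_inv] at h3
  omega

theorem jA_ne_zero {x : Ω ⊗[K] c.toValuationSubring} (hx : x ≠ 0) : jA Ω c x ≠ 0 :=
  fun h => hx (jA_injective c (h.trans (map_zero _).symm))

theorem jA_one_tmul (a : c.toValuationSubring) : jA Ω c (1 ⊗ₜ a) = CF.inr K Ω FC (a : FC) := by
  rw [jA_tmul, map_one, one_mul]

theorem ord_jA_pos {g : Ω ⊗[K] c.toValuationSubring} (hg : eps Ω c g = 0) (hg0 : g ≠ 0) :
    0 < Q.ord (jA Ω c g) := by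
  obtain ⟨t, ht⟩ := IsDiscreteValuationRing.exists_irreducible c.toValuationSubring
  obtain ⟨g', rfl⟩ := exists_eq_mul_of_eps_eq_zero ht hg
  have h1 : (1 ⊗ₜ t : Ω ⊗[K] c.toValuationSubring) ≠ 0 := left_ne_zero_of_mul hg0
  have h2 : g' ≠ 0 := right_ne_zero_of_mul hg0
  rw [map_mul, Q.ord_mul (jA_ne_zero hQ h1) (jA_ne_zero hQ h2), jA_one_tmul hQ]
  have h3 := ord_inr_pos hQ (a := (t : FC)) (by rw [c.ord_coe_irreducible ht]; exact one_pos)
  have h4 := Fermat.Agent.S24.FF.ord_nonneg_of_mem Q (jA_mem hQ g')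
  omega

theorem ord_jA_eq_zero {f : Ω ⊗[K] c.toValuationSubring} (hf : eps Ω c f ≠ 0) :
    Q.ord (jA Ω c f) = 0 := by
  set g := f - algebraMap Ω _ (eps Ω c f) with hgdef
  have hg : eps Ω c g = 0 := by rw [hgdef, map_sub, AlgHom.commutes]; simp
  have hfg : jA Ω c f = algebraMap Ω _ (eps Ω c f) + jA Ω c g := by
    rw [hgdef, map_sub, AlgHom.commutes]; ring
  rcases eq_or_ne g 0 with hg0 | hg0
  · rw [hfg, hg0, map_zero, add_zero, Fermat.Agent.S24.FF.ord_algebraMap]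
  · rw [hfg, Fermat.Agent.S24.FF.ord_add_eq_of_lt Q (by simpa using hf) (jA_ne_zero hQ hg0),
      Fermat.Agent.S24.FF.ord_algebraMap]
    rw [Fermat.Agent.S24.FF.ord_algebraMap]
    exact ord_jA_pos hQ hg hg0

theorem exists_pow_mul {t : c.toValuationSubring} (ht : Irreducible t) :
    ∀ (n : ℕ) (a : Ω ⊗[K] c.toValuationSubring), a ≠ 0 → Q.ord (jA Ω c a) ≤ n →
      ∃ (k : ℕ) (f : Ω ⊗[K] c.toValuationSubring), a = (1 ⊗ₜ t) ^ k * f ∧ eps Ω c f ≠ 0 := by
  intro n
  induction n with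
  | zero =>
    intro a ha hn
    refine ⟨0, a, by simp, fun h => ?_⟩
    have := ord_jA_pos hQ h ha
    simp at hn
    omega
  | succ n ih =>
    intro a ha hn
    by_cases h : eps Ω c a = 0
    · obtain ⟨g', rfl⟩ := exists_eq_mul_of_eps_eq_zero ht h
      have h1 : (1 ⊗ₜ t : Ω ⊗[K] c.toValuationSubring) ≠ 0 := left_ne_zero_of_mul ha
      have h2 : g' ≠ 0 := right_ne_zero_of_mul ha
      rw [map_mul, Q.ord_mul (jA_ne_zero hQ h1) (jA_ne_zero hQ h2), jA_one_tmul hQ] at hn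
      have h3 := ord_inr_pos hQ (a := (t : FC)) (by rw [c.ord_coe_irreducible ht]; exact one_pos)
      obtain ⟨k, f, hf, hf'⟩ := ih g' h2 (by push_cast at hn; omega)
      exact ⟨k + 1, f, by rw [hf, pow_succ']; ring, hf'⟩
    · exact ⟨0, a, by simp, h⟩

omit hQ in
theorem exists_ofTensor_mul (z : Ω ⊗[K] FC) :
    ∃ (a : Ω ⊗[K] c.toValuationSubring) (s : c.toValuationSubring), s ≠ 0 ∧
      CF.ofTensor K Ω FC z * CF.inr K Ω FC (s : FC) = jA Ω c a := by
  induction z using TensorProduct.induction_on with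
  | zero => exact ⟨0, 1, one_ne_zero, by simp⟩
  | tmul ω x =>
    rcases c.toValuationSubring.mem_or_inv_mem x with hx | hx
    · exact ⟨ω ⊗ₜ ⟨x, hx⟩, 1, one_ne_zero, by rw [jA_tmul, CF.ofTensor_tmul]; simp⟩
    · rcases eq_or_ne x 0 with rfl | hx0
      · exact ⟨0, 1, one_ne_zero, by simp⟩
      · refine ⟨ω ⊗ₜ 1, ⟨x⁻¹, hx⟩, fun h => inv_ne_zero hx0 (congrArg Subtype.val h), ?_⟩
        rw [jA_tmul, CF.ofTensor_tmul, mul_assoc, ← map_mul]
        simp [hx0]
  | add z z' hz hz' =>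
    obtain ⟨a, s, hs, h⟩ := hz
    obtain ⟨a', s', hs', h'⟩ := hz'
    refine ⟨a * (1 ⊗ₜ s') + a' * (1 ⊗ₜ s), s * s', mul_ne_zero hs hs', ?_⟩
    rw [map_add, map_add, map_mul, map_mul, ← h, ← h', jA_tmul, jA_tmul]
    simp only [map_one, one_mul, MulMemClass.coe_mul, map_mul]
    ring

omit hQ in
theorem inr_ne_zero {a : FC} (ha : a ≠ 0) : CF.inr K Ω FC a ≠ 0 := by
  simpa using ha

omit hQ in
theorem exists_jA_div (h : CF K Ω FC) :
    ∃ a b : Ω ⊗[K] c.toValuationSubring, b ≠ 0 ∧ h = jA Ω c a / jA Ω c b := by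
  obtain ⟨z, w, hw, rfl⟩ := IsFractionRing.div_surjective (A := Ω ⊗[K] FC) h
  have hw0 : w ≠ 0 := nonZeroDivisors.ne_zero hw
  obtain ⟨a, s, hs, h1⟩ := exists_ofTensor_mul (c := c) z
  obtain ⟨a', s', hs', h2⟩ := exists_ofTensor_mul (c := c) w
  have hs1 : CF.inr K Ω FC (s : FC) ≠ 0 := inr_ne_zero (fun h => hs (Subtype.ext h))
  have hs2 : CF.inr K Ω FC (s' : FC) ≠ 0 := inr_ne_zero (fun h => hs' (Subtype.ext h))
  have hw1 : CF.ofTensor K Ω FC w ≠ 0 := fun h => hw0 (CF.ofTensor_injective (h.trans (map_zero _).symm))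
  have e1 : algebraMap (Ω ⊗[K] FC) (CF K Ω FC) z = CF.ofTensor K Ω FC z := rfl
  have e2 : algebraMap (Ω ⊗[K] FC) (CF K Ω FC) w = CF.ofTensor K Ω FC w := rfl
  have hb : jA Ω c (a' * (1 ⊗ₜ s)) = CF.ofTensor K Ω FC w * CF.inr K Ω FC (s' : FC) * CF.inr K Ω FC (s : FC) := by
    rw [map_mul, ← h2, jA_tmul, map_one, one_mul]
  refine ⟨a * (1 ⊗ₜ s'), a' * (1 ⊗ₜ s), ?_, ?_⟩
  · intro h0
    rw [h0, map_zero] at hb
    exact mul_ne_zero (mul_ne_zero hw1 hs2) hs1 hb.symm
  · rw [hb, map_mul, ← h1, jA_tmul, map_one, one_mul, e1, e2]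
    field_simp

theorem exists_normal_form {t : c.toValuationSubring} (ht : Irreducible t) {h : CF K Ω FC}
    (h0 : h ≠ 0) :
    ∃ (m : ℤ) (f g : Ω ⊗[K] c.toValuationSubring), eps Ω c f ≠ 0 ∧ eps Ω c g ≠ 0 ∧
      h = CF.inr K Ω FC (t : FC) ^ m * (jA Ω c f / jA Ω c g) := by
  obtain ⟨a, b, hb, rfl⟩ := exists_jA_div (c := c) h
  have ha : a ≠ 0 := by rintro rfl; simp at h0
  obtain ⟨k, f, rfl, hf⟩ := exists_pow_mul hQ ht _ a ha (Int.self_le_toNat _)
  obtain ⟨l, g, rfl, hg⟩ := exists_pow_mul hQ ht _ b hb (Int.self_le_toNat _)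
  have ht0 : CF.inr K Ω FC (t : FC) ≠ 0 := inr_ne_zero (fun h => ht.ne_zero (Subtype.ext h))
  have hg0 : jA Ω c g ≠ 0 := jA_ne_zero hQ (right_ne_zero_of_mul hb)
  refine ⟨k - l, f, g, hf, hg, ?_⟩
  rw [map_mul, map_mul, map_pow, map_pow, jA_one_tmul hQ, zpow_sub₀ ht0, zpow_natCast, zpow_natCast]
  field_simp

theorem ord_normal_form (x : CF K Ω FC) (hx : x ≠ 0) (m : ℤ) {f g : Ω ⊗[K] c.toValuationSubring}
    (hf : eps Ω c f ≠ 0) (hg : eps Ω c g ≠ 0) :
    Q.ord (x ^ m * (jA Ω c f / jA Ω c g)) = m * Q.ord x := by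
  have hf0 : jA Ω c f ≠ 0 := jA_ne_zero hQ (by rintro rfl; simp at hf)
  have hg0 : jA Ω c g ≠ 0 := jA_ne_zero hQ (by rintro rfl; simp at hg)
  rw [Q.ord_mul (zpow_ne_zero _ hx) (div_ne_zero hf0 hg0), Q.ord_zpow,
    Fermat.Agent.S24.FF.ord_div Q hf0 hg0, ord_jA_eq_zero hQ hf, ord_jA_eq_zero hQ hg]
  ring

theorem ord_inr_irreducible {t : c.toValuationSubring} (ht : Irreducible t) :
    Q.ord (CF.inr K Ω FC (t : FC)) = 1 := by
  obtain ⟨π, hπ⟩ := Fermat.Agent.S24.FF.exists_ord_eq_one Q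
  have hπ0 : π ≠ 0 := Fermat.Agent.S24.FF.ne_zero_of_ord_ne_zero Q (by rw [hπ]; exact one_ne_zero)
  obtain ⟨m, f, g, hf, hg, rfl⟩ := exists_normal_form hQ ht hπ0
  have ht0 : CF.inr K Ω FC (t : FC) ≠ 0 := inr_ne_zero (fun h => ht.ne_zero (Subtype.ext h))
  rw [ord_normal_form hQ _ ht0 m hf hg] at hπ
  have h3 := ord_inr_pos hQ (a := (t : FC)) (by rw [c.ord_coe_irreducible ht]; exact one_pos)
  exact Int.eq_one_of_mul_eq_one_left h3.le hπ

theorem ord_inr (a : FC) : Q.ord (CF.inr K Ω FC a) = c.ord a := by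
  rcases eq_or_ne a 0 with rfl | ha
  · simp
  obtain ⟨t, ht⟩ := IsDiscreteValuationRing.exists_irreducible c.toValuationSubring
  obtain ⟨u, hu⟩ := c.exists_unit_mul_zpow ha ht
  have ht0 : (t : FC) ≠ 0 := fun h => ht.ne_zero (Subtype.ext h)
  have hu0 : ((u : c.toValuationSubring) : FC) ≠ 0 := fun h => u.ne_zero (Subtype.ext h)
  have h1 : Q.ord (CF.inr K Ω FC ((u : c.toValuationSubring) : FC)) = 0 := by
    have h2 := Fermat.Agent.S24.FF.ord_nonneg_of_mem Q ((inr_mem_iff hQ _).mpr (u : c.toValuationSubring).2)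
    have h3 := Fermat.Agent.S24.FF.ord_nonneg_of_mem Q ((inr_mem_iff hQ _).mpr (↑u⁻¹ : c.toValuationSubring).2)
    have h4 : CF.inr K Ω FC ((↑u⁻¹ : c.toValuationSubring) : FC) =
        (CF.inr K Ω FC ((u : c.toValuationSubring) : FC))⁻¹ := by
      rw [← map_inv₀]
      congr 1
      apply eq_inv_of_mul_eq_one_left
      rw [← MulMemClass.coe_mul, Units.inv_mul]; rfl
    rw [h4, Q.ord_inv] at h3
    omega
  conv_lhs => rw [hu]
  rw [map_mul, map_zpow₀, Q.ord_mul (inr_ne_zero hu0) (zpow_ne_zero _ (inr_ne_zero ht0)), h1,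
    Q.ord_zpow, ord_inr_irreducible hQ ht]
  ring

theorem exists_fraction {f : CF K Ω FC} (hf : f ∈ Q.toValuationSubring) :
    ∃ a b : Ω ⊗[K] c.toValuationSubring, eps Ω c b ≠ 0 ∧ f = jA Ω c a / jA Ω c b := by
  rcases eq_or_ne f 0 with rfl | hf0
  · exact ⟨0, 1, by simp, by simp⟩
  obtain ⟨t, ht⟩ := IsDiscreteValuationRing.exists_irreducible c.toValuationSubring
  obtain ⟨m, a, b, ha, hb, rfl⟩ := exists_normal_form hQ ht hf0
  have ht0 : CF.inr K Ω FC (t : FC) ≠ 0 := inr_ne_zero (fun h => ht.ne_zero (Subtype.ext h))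
  have h1 := Fermat.Agent.S24.FF.ord_nonneg_of_mem Q hf
  rw [ord_normal_form hQ _ ht0 m ha hb, ord_inr_irreducible hQ ht, mul_one] at h1
  obtain ⟨k, rfl⟩ := Int.eq_ofNat_of_zero_le h1
  refine ⟨(1 ⊗ₜ t) ^ k * a, b, hb, ?_⟩
  rw [map_mul, map_pow, jA_one_tmul hQ, zpow_natCast, mul_div_assoc]

omit hQ in
theorem eq_of_traceFC {Q Q' : Place Ω (CF K Ω FC)} (hQ : traceFC Q = c.toValuationSubring)
    (hQ' : traceFC Q' = c.toValuationSubring) : Q = Q' := by
  apply Fermat.Agent.S24.FF.eq_of_le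
  intro f hf
  obtain ⟨a, b, hb, rfl⟩ := exists_fraction hQ hf
  apply Fermat.Agent.S24.FF.mem_of_ord_nonneg
  rcases eq_or_ne a 0 with rfl | ha
  · simp
  have hb0 : jA Ω c b ≠ 0 := jA_ne_zero hQ (by rintro rfl; simp at hb)
  rw [Fermat.Agent.S24.FF.ord_div Q' (jA_ne_zero hQ ha) hb0, ord_jA_eq_zero hQ' hb, sub_zero]
  exact Fermat.Agent.S24.FF.ord_nonneg_of_mem Q' (jA_mem hQ' a)

theorem residue_jA_of_eps_eq_zero {g : Ω ⊗[K] c.toValuationSubring} (hg : eps Ω c g = 0) :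
    IsLocalRing.residue Q.toValuationSubring ⟨_, jA_mem hQ g⟩ = 0 := by
  rcases eq_or_ne g 0 with rfl | hg0
  · have : (⟨jA Ω c 0, jA_mem hQ 0⟩ : Q.toValuationSubring) = 0 := Subtype.ext (map_zero _)
    rw [this, map_zero]
  · have hne0 : (⟨_, jA_mem hQ g⟩ : Q.toValuationSubring) ≠ 0 :=
      fun h => jA_ne_zero hQ hg0 (congrArg Subtype.val h)
    rw [Fermat.Agent.S24.FF.DegOne.residue_eq_zero_iff Q hne0]
    exact ord_jA_pos hQ hg hg0

theorem residue_jA (a : Ω ⊗[K] c.toValuationSubring) :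
    IsLocalRing.residue Q.toValuationSubring ⟨_, jA_mem hQ a⟩ =
      algebraMap Ω Q.ResidueField (eps Ω c a) := by
  have h0 := residue_jA_of_eps_eq_zero hQ (g := a - algebraMap Ω _ (eps Ω c a))
    (by rw [map_sub, AlgHom.commutes]; simp)
  have e1 : (⟨_, jA_mem hQ (a - algebraMap Ω _ (eps Ω c a))⟩ : Q.toValuationSubring) =
      ⟨_, jA_mem hQ a⟩ - algebraMap Ω Q.toValuationSubring (eps Ω c a) := by
    apply Subtype.ext
    simp only [map_sub, AddSubgroupClass.coe_sub, Place.coe_algebraMap, AlgHom.commutes]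
  rw [e1, map_sub, sub_eq_zero] at h0
  rw [h0]; rfl

theorem bijective_ofId : Function.Bijective (Algebra.ofId Ω Q.ResidueField) := by
  refine ⟨(algebraMap Ω Q.ResidueField).injective, fun y => ?_⟩
  obtain ⟨f, rfl⟩ := IsLocalRing.residue_surjective y
  obtain ⟨a, b, hb, hf⟩ := exists_fraction hQ f.2
  have hb0 : jA Ω c b ≠ 0 := jA_ne_zero hQ (by rintro rfl; simp at hb)
  have e1 : f * ⟨_, jA_mem hQ b⟩ = ⟨_, jA_mem hQ a⟩ := by
    apply Subtype.ext
    simp only [MulMemClass.coe_mul]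
    rw [hf, div_mul_cancel₀ _ hb0]
  have e2 := congrArg (IsLocalRing.residue Q.toValuationSubring) e1
  rw [map_mul, residue_jA hQ, residue_jA hQ] at e2
  refine ⟨eps Ω c a / eps Ω c b, ?_⟩
  show algebraMap Ω Q.ResidueField _ = _
  rw [map_div₀, div_eq_iff (by simpa using hb)]
  exact e2.symm

theorem deg_eq_one : Q.deg = 1 := by
  show Module.finrank Ω Q.ResidueField = 1
  rw [← (AlgEquiv.ofBijective _ (bijective_ofId hQ)).toLinearEquiv.finrank_eq, Module.finrank_self]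

end Q

variable (Ω c) in
theorem exists_place : ∃ Q : Place Ω (CF K Ω FC), traceFC Q = c.toValuationSubring := by
  obtain ⟨t, ht⟩ := IsDiscreteValuationRing.exists_irreducible c.toValuationSubring
  have ht0 : (t : FC) ≠ 0 := fun h => ht.ne_zero (Subtype.ext h)
  have e0 : jA Ω c (1 ⊗ₜ t) = CF.inr K Ω FC (t : FC) := by rw [jA_tmul, map_one, one_mul]
  let x : (jA Ω c).range := ⟨jA Ω c (1 ⊗ₜ t), ⟨_, rfl⟩⟩
  have hx : ¬ IsUnit x := by
    intro hu
    obtain ⟨⟨_, y, rfl⟩, hy⟩ := isUnit_iff_exists_inv.mp hu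
    have h1 : jA Ω c ((1 ⊗ₜ t) * y) = jA Ω c 1 := by
      rw [map_mul, map_one]; exact congrArg Subtype.val hy
    have h2 := congrArg (eps Ω c) (jA_injective c h1)
    rw [map_mul, eps_tmul, map_one, (rho_eq_zero_iff c t).mpr
      (Or.inr (by rw [c.ord_coe_irreducible ht]; exact one_pos))] at h2
    simp at h2
  have hx0 : x ≠ 0 := by
    intro h
    have := congrArg Subtype.val h
    exact inr_ne_zero ht0 (e0.symm.trans this)
  obtain ⟨v, hv, hpos⟩ := exists_place_of_subalgebra (jA Ω c).range x hx hx0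
  have hpos' : 0 < v.ord (CF.inr K Ω FC (t : FC)) := by rw [← e0]; exact hpos
  have hle : c.toValuationSubring ≤ traceFC v := by
    intro a ha
    rw [traceFC, ValuationSubring.mem_comap]
    have h1 : jA Ω c (1 ⊗ₜ ⟨a, ha⟩) ∈ v.toValuationSubring := hv ⟨jA Ω c (1 ⊗ₜ ⟨a, ha⟩), ⟨_, rfl⟩⟩
    rw [jA_tmul, map_one, one_mul] at h1
    exact h1
  have hne : traceFC v ≠ ⊤ := by
    intro htop
    have h1 : (t : FC)⁻¹ ∈ traceFC v := by rw [htop]; trivial
    rw [traceFC, ValuationSubring.mem_comap] at h1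
    have h2 := Fermat.Agent.S24.FF.ord_nonneg_of_mem v h1
    have h3 : (CF.inr K Ω FC).toRingHom (t : FC)⁻¹ = (CF.inr K Ω FC (t : FC))⁻¹ := map_inv₀ _ _
    rw [h3, v.ord_inv] at h2
    omega
  obtain ⟨c', hc'⟩ := exists_place_of_valuationSubring (Ω := K) (traceFC v)
    (fun a => hle (c.algebraMap_mem' a)) hne
  have : c = c' := Fermat.Agent.S24.FF.eq_of_le (by rw [hc']; exact hle)
  exact ⟨v, by rw [← hc', this]⟩

end ConstAux

/-- Gauss formula characterising the constant place over `c`. -/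
theorem exists_constPlace [FF1 K FC] (Ω : Type u) [Field Ω] [Algebra K Ω] (c : Place K FC) :
    ∃ Q : Place Ω (CF K Ω FC), traceFC Q = c.toValuationSubring ∧
      (∀ a : FC, Q.ord (CF.inr K Ω FC a) = c.ord a) ∧ Q.deg = 1 := by
  obtain ⟨Q, hQ⟩ := ConstAux.exists_place Ω c
  exact ⟨Q, hQ, ConstAux.ord_inr hQ, ConstAux.deg_eq_one hQ⟩

/-- the constant place `c_Ω` -/
noncomputable def constPlace [FF1 K FC] (Ω : Type u) [Field Ω] [Algebra K Ω] (c : Place K FC) :
    Place Ω (CF K Ω FC) := (exists_constPlace Ω c).choose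

theorem traceFC_constPlace [FF1 K FC] (c : Place K FC) :
    traceFC (constPlace Ω c) = c.toValuationSubring := (exists_constPlace Ω c).choose_spec.1

theorem ord_constPlace_inr [FF1 K FC] (c : Place K FC) (a : FC) :
    (constPlace Ω c).ord (CF.inr K Ω FC a) = c.ord a := (exists_constPlace Ω c).choose_spec.2.1 a

theorem deg_constPlace [FF1 K FC] (c : Place K FC) : (constPlace Ω c).deg = 1 :=
  (exists_constPlace Ω c).choose_spec.2.2

/-- uniqueness of the place over `c` -/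
theorem eq_constPlace_of_traceFC [FF1 K FC] (Q : Place Ω (CF K Ω FC)) (c : Place K FC)
    (h : traceFC Q = c.toValuationSubring) : Q = constPlace Ω c :=
  ConstAux.eq_of_traceFC h (traceFC_constPlace c)

theorem constPlace_injective [FF1 K FC] : Function.Injective (constPlace (K := K) (FC := FC) Ω) := by
  intro c c' h
  apply Place.ext
  rw [← traceFC_constPlace (Ω := Ω) c, h, traceFC_constPlace]

/-- classification -/
theorem exists_eq_constPlace_or_isNonconst [FF1 K FC] (Q : Place Ω (CF K Ω FC)) :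
    (∃ c : Place K FC, Q = constPlace Ω c) ∨ IsNonconst Q := by
  by_cases h : traceFC Q = ⊤
  · exact Or.inr h
  · left
    obtain ⟨c, hc⟩ := exists_place_of_valuationSubring (Ω := K) (traceFC Q) (fun a => by
      rw [traceFC, ValuationSubring.mem_comap]
      have : (CF.inr K Ω FC).toRingHom (algebraMap K FC a) =
          algebraMap Ω (CF K Ω FC) (algebraMap K Ω a) := by
        rw [← IsScalarTower.algebraMap_apply]
        exact (CF.inr K Ω FC).commutes a
      rw [this]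
      exact Q.algebraMap_mem' _) h
    exact ⟨c, eq_constPlace_of_traceFC Q c hc.symm⟩

/-- Gauss formula: `ord_{c_Ω}(∑ ωᵢ ⊗ aᵢ) = min ord_c(aᵢ)` for `K`-linearly independent `ωᵢ`; in the form:
if all `aᵢ ∈ L`-type bound then so is the sum, and conversely. -/
theorem ord_constPlace_sum [FF1 K FC] (c : Place K FC) {ι : Type*} (s : Finset ι) (ω : ι → Ω)
    (hω : LinearIndependent K (fun i : s => ω i)) (a : ι → FC) (n : ℤ)
    (hne : ∑ i ∈ s, algebraMap Ω (CF K Ω FC) (ω i) * CF.inr K Ω FC (a i) ≠ 0)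
    (h : n ≤ (constPlace Ω c).ord (∑ i ∈ s, algebraMap Ω (CF K Ω FC) (ω i) * CF.inr K Ω FC (a i))) :
    ∀ i ∈ s, a i = 0 ∨ n ≤ c.ord (a i) := by
  classical
  have hQ := traceFC_constPlace (Ω := Ω) c
  by_contra hcon
  push Not at hcon
  obtain ⟨i0, hi0, ha0, hlt⟩ := hcon
  have hs' : (s.filter (fun i => a i ≠ 0)).Nonempty := ⟨i0, by simp [hi0, ha0]⟩
  obtain ⟨i1, hi1, hmin⟩ := Finset.exists_min_image _ (fun i => c.ord (a i)) hs'
  rw [Finset.mem_filter] at hi1
  set m := c.ord (a i1) with hm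
  have hmn : m < n := lt_of_le_of_lt (hmin i0 (by simp [hi0, ha0])) hlt
  obtain ⟨t, ht⟩ := IsDiscreteValuationRing.exists_irreducible c.toValuationSubring
  have ht0 : (t : FC) ≠ 0 := fun h => ht.ne_zero (Subtype.ext h)
  have hord : ∀ i, a i ≠ 0 → c.ord (a i * (t : FC) ^ (-m)) = c.ord (a i) - m := by
    intro i hi
    rw [c.ord_mul hi (zpow_ne_zero _ ht0), c.ord_zpow, c.ord_coe_irreducible ht]; ring
  have hmem : ∀ i ∈ s, a i * (t : FC) ^ (-m) ∈ c.toValuationSubring := by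
    intro i hi
    rcases eq_or_ne (a i) 0 with h0 | h0
    · rw [h0, zero_mul]; exact zero_mem _
    · apply Fermat.Agent.S24.FF.mem_of_ord_nonneg
      rw [hord i h0]
      have := hmin i (by simp [hi, h0])
      omega
  let a' : ι → c.toValuationSubring := fun i => if h : i ∈ s then ⟨_, hmem i h⟩ else 0
  have ha' : ∀ i ∈ s, ((a' i : c.toValuationSubring) : FC) = a i * (t : FC) ^ (-m) := by
    intro i hi; simp [a', hi]
  let f : Ω ⊗[K] c.toValuationSubring := ∑ i ∈ s, ω i ⊗ₜ a' i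
  have hjf : ConstAux.jA Ω c f =
      (∑ i ∈ s, algebraMap Ω (CF K Ω FC) (ω i) * CF.inr K Ω FC (a i)) *
        CF.inr K Ω FC (t : FC) ^ (-m) := by
    rw [map_sum, Finset.sum_mul]
    refine Finset.sum_congr rfl fun i hi => ?_
    rw [ConstAux.jA_tmul, ha' i hi, map_mul, map_zpow₀, mul_assoc]
  have heps : ConstAux.eps Ω c f ≠ 0 := by
    intro h0
    rw [map_sum] at h0
    have h1 : ∑ i : s, (ConstAux.rho c (a' i)) • ω i = 0 := by
      rw [Finset.sum_coe_sort s (fun i => (ConstAux.rho c (a' i)) • ω i), ← h0]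
      refine Finset.sum_congr rfl fun i _ => ?_
      rw [ConstAux.eps_tmul, Algebra.smul_def, mul_comm]
    have h2 := Fintype.linearIndependent_iff.mp hω (fun i => ConstAux.rho c (a' i)) h1 ⟨i1, hi1.1⟩
    rcases (ConstAux.rho_eq_zero_iff c _).mp h2 with h3 | h3
    · have h4 := congrArg Subtype.val h3
      rw [ha' i1 hi1.1] at h4
      exact mul_ne_zero hi1.2 (zpow_ne_zero _ ht0) h4
    · rw [ha' i1 hi1.1, hord i1 hi1.2] at h3
      omega
  have h5 := ConstAux.ord_jA_eq_zero hQ heps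
  rw [hjf, (constPlace Ω c).ord_mul hne (zpow_ne_zero _ (ConstAux.inr_ne_zero ht0)),
    (constPlace Ω c).ord_zpow, ConstAux.ord_inr_irreducible hQ ht] at h5
  omega

/-- the local ring of a constant place is a localisation of `Ω ⊗ O_c`. -/
theorem exists_fraction_of_const [FF1 K FC] (c : Place K FC)
    (f : CF K Ω FC) (hf : f ∈ (constPlace Ω c).toValuationSubring) :
    ∃ a b : Ω ⊗[K] c.toValuationSubring,
      let j := (CF.ofTensor K Ω FC).toRingHom.comp
        (Algebra.TensorProduct.map (AlgHom.id K Ω) (IsScalarTower.toAlgHom K c.toValuationSubring FC)).toRingHom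
      (constPlace Ω c).ord (j b) = 0 ∧ j b ≠ 0 ∧ f = j a / j b := by
  have hQ := traceFC_constPlace (Ω := Ω) c
  obtain ⟨a, b, hb, hfab⟩ := ConstAux.exists_fraction hQ hf
  have hj : ∀ x, ((CF.ofTensor K Ω FC).toRingHom.comp
        (Algebra.TensorProduct.map (AlgHom.id K Ω)
          (IsScalarTower.toAlgHom K c.toValuationSubring FC)).toRingHom) x = ConstAux.jA Ω c x := by
    intro x
    rfl
  refine ⟨a, b, ?_⟩
  simp only [hj]
  exact ⟨ConstAux.ord_jA_eq_zero hQ hb, ConstAux.jA_ne_zero hQ (by rintro rfl; simp at hb), hfab⟩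

variable {Φ : Type u} [Field Φ] [Algebra K Φ]

theorem exists_constEval [FF1 K FC] (c : Place K FC) :
    ∃ e : (constPlace Φ c).toValuationSubring →ₐ[Φ] Φ,
      (∀ f : (constPlace Φ c).toValuationSubring,
        e f = 0 ↔ f = 0 ∨ 0 < (constPlace Φ c).ord (f : CF K Φ FC)) ∧
      (∀ (a : c.toValuationSubring) (h : CF.inr K Φ FC a ∈ (constPlace Φ c).toValuationSubring),
        e ⟨_, h⟩ = algebraMap K Φ (resEquiv c (IsLocalRing.residue _ a))) := by
  have hQ := traceFC_constPlace (Ω := Φ) c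
  set Q := constPlace Φ c with hQdef
  let E : Φ ≃ₐ[Φ] Q.ResidueField := AlgEquiv.ofBijective (Algebra.ofId Φ Q.ResidueField)
    (ConstAux.bijective_ofId hQ)
  let e : Q.toValuationSubring →ₐ[Φ] Φ :=
    E.symm.toAlgHom.comp (IsScalarTower.toAlgHom Φ Q.toValuationSubring Q.ResidueField)
  have he : ∀ f, e f = E.symm (IsLocalRing.residue Q.toValuationSubring f) := fun _ => rfl
  refine ⟨e, ?_, ?_⟩
  · intro f
    rw [he, EmbeddingLike.map_eq_zero_iff]
    rcases eq_or_ne f 0 with rfl | hf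
    · simp
    · rw [Fermat.Agent.S24.FF.DegOne.residue_eq_zero_iff Q hf]
      simp [hf]
  · intro a h
    rw [he]
    have h1 := ConstAux.residue_jA hQ (1 ⊗ₜ a)
    rw [ConstAux.eps_tmul, one_mul] at h1
    have h2 : (⟨_, h⟩ : Q.toValuationSubring) = ⟨_, ConstAux.jA_mem hQ (1 ⊗ₜ a)⟩ :=
      Subtype.ext (ConstAux.jA_one_tmul hQ a).symm
    rw [h2, h1]
    exact E.symm_apply_apply _

end Fermat.Agent.S26
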