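import Fermat.Agent.S26.Alg.TensorDomain
import Fermat.Agent.S26.FF.Defs

/-! # S26 / M2 : `Ω ⊗[K] FC` is a Dedekind domain

`K` perfect, `FC/K` a function field of one variable, `Ω/K` any field such that `Ω ⊗[K] FC` is a domain.
Proof: choose a separating element `x`; `Ω ⊗[K] FC` is essentially of finite type and formally unramified over
the PID `Ω[X]` (`X ↦ 1 ⊗ x`), so the maximal ideal of each localisation is principal. -/

set_option autoImplicit false

namespace Fermat.Agent.S26

open IsLocalRing TensorProduct Polynomial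


theorem isDedekindDomain_of_unramified (R S : Type*) [CommRing R] [IsDomain R]
    [IsPrincipalIdealRing R] [CommRing S] [IsDomain S] [Algebra R S]
    [Algebra.EssFiniteType R S] [Algebra.FormallyUnramified R S] : IsDedekindDomain S := by
  have hN : IsNoetherianRing S := Algebra.EssFiniteType.isNoetherianRing R S
  have : IsDedekindDomainDvr S := by
    refine ⟨fun P hP hPp => ?_⟩
    let p : Ideal R := P.under R
    have : p.IsPrime := inferInstance
    have hl : P.LiesOver p := ⟨rfl⟩
    have hu : Algebra.IsUnramifiedAt R P := inferInstance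
    let _ := Localization.AtPrime.algebraOfLiesOver p P
    have h := ((Algebra.isUnramifiedAt_iff_map_eq R p P).mp hu).2
    have hprin : (maximalIdeal (Localization.AtPrime P)).IsPrincipal := by
      rw [← h]
      obtain ⟨a, ha⟩ := IsPrincipalIdealRing.principal p
      refine ⟨algebraMap R _ a, ?_⟩
      rw [ha]
      simp [Ideal.submodule_span_eq, Ideal.map_span]
    have hnf : ¬ IsField (Localization.AtPrime P) := by
      intro hf
      apply hP
      have h0 : maximalIdeal (Localization.AtPrime P) = ⊥ := (isField_iff_maximalIdeal_eq).mp hf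
      rw [← Localization.AtPrime.map_eq_maximalIdeal] at h0
      rw [eq_bot_iff]
      intro s hs
      have : algebraMap S (Localization.AtPrime P) s ∈ Ideal.map (algebraMap S _) P :=
        Ideal.mem_map_of_mem _ hs
      rw [h0] at this
      have h1 : algebraMap S (Localization.AtPrime P) s = 0 := by simpa using this
      have hinj : Function.Injective (algebraMap S (Localization.AtPrime P)) :=
        IsLocalization.injective _ P.primeCompl_le_nonZeroDivisors
      simpa using hinj (h1.trans (map_zero _).symm)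
    exact ((IsDiscreteValuationRing.TFAE (Localization.AtPrime P) hnf).out 0 4).mpr hprin
  infer_instance

/-- a derivation kills `G(t)` up to `G'(t) • D t` if it kills the coefficients of `G` -/
theorem derivation_eval_of_coeff {R T M : Type*} [CommRing R] [CommRing T] [Algebra R T]
    [AddCommGroup M] [Module R M] [Module T M] (D : Derivation R T M) (G : T[X])
    (hG : ∀ n, D (G.coeff n) = 0) (t : T) :
    D (G.eval t) = G.derivative.eval t • D t := by
  rw [Polynomial.eval_eq_sum_range, map_sum, Polynomial.derivative_eval, Polynomial.sum_def,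
    Finset.sum_smul]
  have h1 : ∀ n, D (G.coeff n * t ^ n) = (G.coeff n * n * t ^ (n - 1)) • D t := by
    intro n
    rw [Derivation.leibniz, hG n, smul_zero, add_zero, Derivation.leibniz_pow,
      ← Nat.cast_smul_eq_nsmul T n, smul_smul, smul_smul, mul_assoc]
  simp_rw [h1]
  symm
  apply Finset.sum_subset
  · intro n hn
    rw [Finset.mem_range, Nat.lt_succ_iff]
    exact Polynomial.le_natDegree_of_mem_supp n hn
  · intro n _ hn
    rw [Polynomial.notMem_support_iff.mp hn]
    simp

open IntermediateField in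
theorem formallyUnramified_tensor {K Ω FC : Type*} [Field K] [Field Ω] [Algebra K Ω] [Field FC]
    [Algebra K FC] (x : FC) [Algebra.IsSeparable K⟮x⟯ FC] :
    letI : Algebra (Polynomial Ω) (Ω ⊗[K] FC) := (aeval (1 ⊗ₜ x : Ω ⊗[K] FC)).toRingHom.toAlgebra
    Algebra.FormallyUnramified (Polynomial Ω) (Ω ⊗[K] FC) := by
  let _ : Algebra (Polynomial Ω) (Ω ⊗[K] FC) := (aeval (1 ⊗ₜ x : Ω ⊗[K] FC)).toRingHom.toAlgebra
  have halg : ∀ p : (Polynomial Ω), algebraMap (Polynomial Ω) (Ω ⊗[K] FC) p = aeval (1 ⊗ₜ x : Ω ⊗[K] FC) p :=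
    fun _ => rfl
  set D := KaehlerDifferential.D (Polynomial Ω) (Ω ⊗[K] FC) with hD
  have h1 : ∀ ω : Ω, D (ω ⊗ₜ 1) = 0 := by
    intro ω
    have : (ω ⊗ₜ 1 : Ω ⊗[K] FC) = algebraMap (Polynomial Ω) (Ω ⊗[K] FC) (C ω) := by
      rw [halg, aeval_C]; rfl
    rw [this, Derivation.map_algebraMap]
  have h2 : D (1 ⊗ₜ x) = 0 := by
    have : (1 ⊗ₜ x : Ω ⊗[K] FC) = algebraMap (Polynomial Ω) (Ω ⊗[K] FC) X := by
      rw [halg, aeval_X]
    rw [this, Derivation.map_algebraMap]
  have h3 : ∀ r ∈ K⟮x⟯, D (1 ⊗ₜ r) = 0 := by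
    intro r hr
    induction hr using IntermediateField.adjoin_induction with
    | mem y hy => rw [Set.mem_singleton_iff.mp hy]; exact h2
    | algebraMap c =>
      have : (1 ⊗ₜ algebraMap K FC c : Ω ⊗[K] FC) = (algebraMap K Ω c) ⊗ₜ 1 := by
        rw [Algebra.algebraMap_eq_smul_one, Algebra.algebraMap_eq_smul_one, TensorProduct.tmul_smul,
          TensorProduct.smul_tmul']
      rw [this]; exact h1 _
    | add y z _ _ hy hz => rw [TensorProduct.tmul_add, map_add, hy, hz, add_zero]
    | inv y _ hy =>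
      rcases eq_or_ne y 0 with rfl | hy0
      · simp
      have e : (1 ⊗ₜ y : Ω ⊗[K] FC) * (1 ⊗ₜ y⁻¹) = 1 := by
        rw [Algebra.TensorProduct.tmul_mul_tmul, mul_one, mul_inv_cancel₀ hy0]; rfl
      have := congrArg D e
      rw [Derivation.leibniz, hy, smul_zero, add_zero, Derivation.map_one_eq_zero] at this
      have h' := congrArg (fun m => (1 ⊗ₜ y⁻¹ : Ω ⊗[K] FC) • m) this
      simp only [smul_smul, smul_zero] at h'
      rwa [mul_comm, e, one_smul] at h'
    | mul y z _ _ hy hz =>
      have e : (1 ⊗ₜ (y * z) : Ω ⊗[K] FC) = (1 ⊗ₜ y) * (1 ⊗ₜ z) := by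
        rw [Algebra.TensorProduct.tmul_mul_tmul, mul_one]
      rw [e, Derivation.leibniz, hy, hz, smul_zero, smul_zero, add_zero]
  have h4 : ∀ a : FC, D (1 ⊗ₜ a) = 0 := by
    intro a
    let j : FC →+* Ω ⊗[K] FC := (Algebra.TensorProduct.includeRight : FC →ₐ[K] Ω ⊗[K] FC).toRingHom
    have hj : ∀ b, j b = 1 ⊗ₜ b := fun _ => rfl
    let g := minpoly K⟮x⟯ a
    have hsep : g.Separable := Algebra.IsSeparable.isSeparable K⟮x⟯ a
    let G : (Ω ⊗[K] FC)[X] := g.map (j.comp (algebraMap K⟮x⟯ FC))
    have hG : ∀ n, D (G.coeff n) = 0 := by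
      intro n
      rw [Polynomial.coeff_map]
      exact h3 _ (g.coeff n).2
    have e1 : ∀ q : K⟮x⟯[X], (q.map (j.comp (algebraMap K⟮x⟯ FC))).eval (j a) = j (aeval a q) := by
      intro q
      rw [Polynomial.eval_map, ← Polynomial.hom_eval₂, Polynomial.aeval_def]
    have key := derivation_eval_of_coeff D G hG (j a)
    rw [e1, minpoly.aeval, map_zero, map_zero, Polynomial.derivative_map, e1] at key
    have hne : aeval a (derivative g) ≠ 0 := hsep.aeval_derivative_ne_zero (minpoly.aeval _ _)
    have hu : IsUnit (j (aeval a (derivative g))) := (IsUnit.mk0 _ hne).map j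
    exact (hu.smul_eq_zero).mp key.symm
  have h5 : ∀ t, D t = 0 := by
    intro t
    induction t with
    | zero => simp
    | add y z hy hz => rw [map_add, hy, hz, add_zero]
    | tmul ω a =>
      have e : (ω ⊗ₜ a : Ω ⊗[K] FC) = (ω ⊗ₜ 1) * (1 ⊗ₜ a) := by
        rw [Algebra.TensorProduct.tmul_mul_tmul, mul_one, one_mul]
      rw [e, Derivation.leibniz, h1, h4, smul_zero, smul_zero, add_zero]
  constructor
  have htop := KaehlerDifferential.span_range_derivation (Polynomial Ω) (Ω ⊗[K] FC)
  have : Set.range (KaehlerDifferential.D (Polynomial Ω) (Ω ⊗[K] FC)) ⊆ {0} := by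
    rintro _ ⟨t, rfl⟩; exact h5 t
  have hbot : (⊤ : Submodule (Ω ⊗[K] FC) (KaehlerDifferential (Polynomial Ω) (Ω ⊗[K] FC))) = ⊥ := by
    rw [← htop, eq_bot_iff]
    exact (Submodule.span_mono this).trans (by simp)
  exact (Submodule.subsingleton_iff _).mp (subsingleton_of_bot_eq_top hbot.symm)

/-- a separating element of a function field of one variable over a perfect field -/
theorem exists_separating (K FC : Type*) [Field K] [PerfectField K] [Field FC] [Algebra K FC]
    [FF1 K FC] : ∃ x : FC, Transcendental K x ∧ Algebra.IsSeparable (IntermediateField.adjoin K {x}) FC := by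
  have := FF1.essFiniteType (Ω := K) (𝕃 := FC)
  obtain ⟨s, hs, hsep⟩ := exists_isTranscendenceBasis_and_isSeparable_of_perfectField K FC
  have hcard : Cardinal.mk s = 1 := by
    rw [hs.cardinalMk_eq_trdeg, FF1.trdeg_eq_one]
  have hc : s.card = 1 := by
    have : (Cardinal.mk s) = (s.card : Cardinal) := by simp
    rw [this] at hcard
    exact_mod_cast hcard
  obtain ⟨x, rfl⟩ := Finset.card_eq_one.mp hc
  refine ⟨x, ?_, by rw [Finset.coe_singleton] at hsep; exact hsep⟩
  have := hs.1
  have h2 := this.transcendental ⟨x, by simp⟩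
  simpa using h2

theorem isDedekindDomain_tensor (K Ω FC : Type*) [Field K] [PerfectField K] [Field Ω] [Algebra K Ω]
    [Field FC] [Algebra K FC] [FF1 K FC] [IsDomain (Ω ⊗[K] FC)] : IsDedekindDomain (Ω ⊗[K] FC) := by
  obtain ⟨x, -, hsep⟩ := exists_separating K FC
  have := FF1.essFiniteType (Ω := K) (𝕃 := FC)
  let _ : Algebra (Polynomial Ω) (Ω ⊗[K] FC) := (aeval (1 ⊗ₜ x : Ω ⊗[K] FC)).toRingHom.toAlgebra
  have hu : Algebra.FormallyUnramified (Polynomial Ω) (Ω ⊗[K] FC) := formallyUnramified_tensor x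
  have ht : IsScalarTower Ω (Polynomial Ω) (Ω ⊗[K] FC) := by
    refine IsScalarTower.of_algebraMap_eq fun ω => ?_
    show _ = aeval (1 ⊗ₜ x : Ω ⊗[K] FC) (algebraMap Ω (Polynomial Ω) ω)
    rw [Polynomial.algebraMap_eq, aeval_C]
  have he : Algebra.EssFiniteType (Polynomial Ω) (Ω ⊗[K] FC) :=
    Algebra.EssFiniteType.of_comp Ω (Polynomial Ω) (Ω ⊗[K] FC)
  exact isDedekindDomain_of_unramified (Polynomial Ω) (Ω ⊗[K] FC)

end Fermat.Agent.S26
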