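import Fermat.Agent.S24.FF.DegOne
import Fermat.Agent.S26.FF.Defs

/-! # S26 / M2c : places of the fraction field of a Dedekind domain `R` (an `Ω`-algebra) containing `R`
are the primes of `R`.  (Generalisation of `Fermat.Agent.S24.FF.PlacePrime`.) -/

set_option autoImplicit false

namespace Fermat.Agent.S26

open AlgebraicCurve IsDedekindDomain Fermat.Agent.S24.FF

variable (Ω : Type*) {R F : Type*} [Field Ω] [CommRing R] [IsDedekindDomain R] [Field F]
  [Algebra R F] [IsFractionRing R F] [Algebra Ω R] [Algebra Ω F] [IsScalarTower Ω R F]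

/-- the place attached to a prime of the Dedekind domain `R` -/
noncomputable def placeOfPrime (P : HeightOneSpectrum R) : Place Ω F :=
  Place.ofHeightOneSpectrum (K := Ω) P

theorem placeOfPrime_ord (P : HeightOneSpectrum R) (f : F) :
    (placeOfPrime Ω P : Place Ω F).ord f = -(WithZero.log (P.valuation F f)) :=
  ord_eq_of_valuationSubring_eq (placeOfPrime Ω P) (P.valuation F) rfl
    (P.valuation_exists_uniformizer F) f

theorem algebraMap_mem_placeOfPrime (P : HeightOneSpectrum R) (s : R) :
    algebraMap R F s ∈ (placeOfPrime Ω P : Place Ω F).toValuationSubring := by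
  show algebraMap R F s ∈ (P.valuation F).valuationSubring
  rw [Valuation.mem_valuationSubring_iff]
  exact P.valuation_le_one s

theorem placeOfPrime_ord_nonneg (P : HeightOneSpectrum R) (s : R) :
    0 ≤ (placeOfPrime Ω P : Place Ω F).ord (algebraMap R F s) :=
  ord_nonneg_of_mem _ (algebraMap_mem_placeOfPrime Ω P s)

theorem placeOfPrime_ord_pos_iff (P : HeightOneSpectrum R) (s : R) (hs : s ≠ 0) :
    0 < (placeOfPrime Ω P : Place Ω F).ord (algebraMap R F s) ↔ s ∈ P.asIdeal := by
  have hsF : algebraMap R F s ≠ 0 := by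
    simpa using (IsFractionRing.injective R F).ne hs
  have hval : P.valuation F (algebraMap R F s) ≠ 0 := (Valuation.ne_zero_iff _).mpr hsF
  rw [← P.valuation_lt_one_iff_mem (K := F), placeOfPrime_ord]
  conv_rhs => rw [← WithZero.exp_log hval, ← WithZero.exp_zero, WithZero.exp_lt_exp]
  omega

theorem placeOfPrime_ord_eq_zero (P : HeightOneSpectrum R) (s : R) (hs : s ∉ P.asIdeal) :
    (placeOfPrime Ω P : Place Ω F).ord (algebraMap R F s) = 0 := by
  have hs0 : s ≠ 0 := fun h => hs (h ▸ zero_mem _)
  have h1 := placeOfPrime_ord_nonneg (F := F) Ω P s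
  have h2 := (placeOfPrime_ord_pos_iff (F := F) Ω P s hs0).not.mpr hs
  omega

theorem placeOfPrime_injective :
    Function.Injective (placeOfPrime Ω : HeightOneSpectrum R → Place Ω F) := by
  intro P Q h
  apply HeightOneSpectrum.ext
  ext s
  rcases eq_or_ne s 0 with rfl | hs
  · simp
  rw [← placeOfPrime_ord_pos_iff (F := F) Ω P s hs, ← placeOfPrime_ord_pos_iff (F := F) Ω Q s hs, h]

variable {Ω}

theorem exists_placeOfPrime_eq (v : Place Ω F)
    (hv : ∀ s : R, algebraMap R F s ∈ v.toValuationSubring) :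
    ∃ P : HeightOneSpectrum R, placeOfPrime Ω P = v := by
  let j : R →+* v.toValuationSubring :=
    (algebraMap R F).codRestrict v.toValuationSubring.toSubring hv
  have hj : ∀ s, ((j s : v.toValuationSubring) : F) = algebraMap R F s := fun _ => rfl
  let P₀ : Ideal R := (IsLocalRing.maximalIdeal v.toValuationSubring).comap j
  have hprime : P₀.IsPrime := Ideal.comap_isPrime _ _
  have hnotmem : ∀ t : R, t ∉ P₀ → IsUnit (j t) := by
    intro t ht
    by_contra hu
    exact ht ((IsLocalRing.mem_maximalIdeal _).mpr hu)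
  have hinv : ∀ t : R, t ∉ P₀ → (algebraMap R F t)⁻¹ ∈ v.toValuationSubring := by
    intro t ht
    obtain ⟨u, hu⟩ := hnotmem t ht
    have h3 : ((u : v.toValuationSubring) : F) * (((u⁻¹ : v.toValuationSubringˣ) :
        v.toValuationSubring) : F) = 1 := by
      have h := congrArg (Subtype.val) (u.mul_inv)
      rwa [MulMemClass.coe_mul, OneMemClass.coe_one] at h
    have h4 : ((u : v.toValuationSubring) : F) = algebraMap R F t := by rw [hu]; rfl
    rw [h4] at h3
    rw [← eq_inv_of_mul_eq_one_right h3]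
    exact ((u⁻¹ : v.toValuationSubringˣ) : v.toValuationSubring).2
  have hne : P₀ ≠ ⊥ := by
    intro hbot
    apply v.ne_top'
    refine SetLike.ext fun g => ⟨fun _ => ValuationSubring.mem_top g, fun _ => ?_⟩
    obtain ⟨a, b, hb, hab⟩ := IsFractionRing.div_surjective (A := R) g
    rw [← hab, div_eq_mul_inv]
    have hb0 : b ≠ 0 := nonZeroDivisors.ne_zero hb
    have hbP : b ∉ P₀ := by rw [hbot]; simpa using hb0
    exact mul_mem (j a).2 (hinv b hbP)
  refine ⟨⟨P₀, hprime, hne⟩, eq_of_le fun f hf => ?_⟩
  have hf' : (HeightOneSpectrum.valuation F (⟨P₀, hprime, hne⟩ : HeightOneSpectrum R)) f ≤ 1 :=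
    (Valuation.mem_valuationSubring_iff _ _).mp hf
  obtain ⟨n, d, hnd⟩ := HeightOneSpectrum.exists_primeCompl_mul_eq_of_integer _ f hf'
  have hd : (d : R) ∉ P₀ := d.2
  have hd0 : algebraMap R F (d : R) ≠ 0 := by
    intro h0
    apply hd
    have : (d : R) = 0 := (IsFractionRing.injective R F) (h0.trans (map_zero _).symm)
    rw [this]; exact zero_mem _
  have : f = algebraMap R F n * (algebraMap R F (d : R))⁻¹ := by
    rw [eq_mul_inv_iff_mul_eq₀ hd0]
    exact hnd
  rw [this]
  exact mul_mem (j n).2 (hinv _ hd)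

variable (Ω)

theorem exists_div_of_mem_placeOfPrime (P : HeightOneSpectrum R) {f : F}
    (hf : f ∈ (placeOfPrime Ω P : Place Ω F).toValuationSubring) :
    ∃ n d : R, d ∉ P.asIdeal ∧ algebraMap R F d ≠ 0 ∧ f = algebraMap R F n / algebraMap R F d := by
  have hf' : P.valuation F f ≤ 1 := (Valuation.mem_valuationSubring_iff _ _).mp hf
  obtain ⟨n, d, hnd⟩ := HeightOneSpectrum.exists_primeCompl_mul_eq_of_integer _ f hf'
  have hd : (d : R) ∉ P.asIdeal := d.2
  have hd0 : algebraMap R F (d : R) ≠ 0 := by
    intro h0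
    apply hd
    have : (d : R) = 0 := (IsFractionRing.injective R F) (h0.trans (map_zero _).symm)
    rw [this]; exact zero_mem _
  exact ⟨n, d, hd, hd0, by rw [eq_div_iff hd0]; exact hnd⟩

/-- an element lying in all the valuation rings of the primes of `R` is in `R` -/
theorem mem_range_of_forall_placeOfPrime (f : F)
    (h : ∀ P : HeightOneSpectrum R, f ∈ (placeOfPrime Ω P : Place Ω F).toValuationSubring) :
    f ∈ (algebraMap R F).range :=
  HeightOneSpectrum.mem_integers_of_valuation_le_one F f fun P =>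
    (Valuation.mem_valuationSubring_iff _ _).mp (h P)

end Fermat.Agent.S26
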