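import Fermat.Agent.S26.Curve.CFBasic
import Fermat.Agent.S26.Curve.Dedekind
import Fermat.Agent.S26.Curve.DedekindPlace

/-! # S26 / M2c : the non-constant places of `Ω(C)` are the localisations of the Dedekind domain `Ω ⊗[K] FC`. -/

set_option autoImplicit false

universe u

namespace Fermat.Agent.S26

open AlgebraicCurve TensorProduct IsDedekindDomain

variable {K : Type u} [Field K] [IsAlgClosed K]
variable {Ω FC : Type u} [Field Ω] [Algebra K Ω] [Field FC] [Algebra K FC]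

instance isDedekindDomain_tensor' [FF1 K FC] : IsDedekindDomain (Ω ⊗[K] FC) :=
  isDedekindDomain_tensor K Ω FC

theorem CF.ofTensor_apply (t : Ω ⊗[K] FC) :
    CF.ofTensor K Ω FC t = algebraMap (Ω ⊗[K] FC) (CF K Ω FC) t := rfl

theorem CF.inr_apply (a : FC) :
    CF.inr K Ω FC a = algebraMap (Ω ⊗[K] FC) (CF K Ω FC) (1 ⊗ₜ a) := rfl

theorem isNonconst_placeOfPrime [FF1 K FC] (P : HeightOneSpectrum (Ω ⊗[K] FC)) :
    IsNonconst (placeOfPrime Ω P : Place Ω (CF K Ω FC)) := by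
  refine SetLike.ext fun a => ⟨fun _ => ValuationSubring.mem_top a, fun _ => ?_⟩
  rw [traceFC, ValuationSubring.mem_comap]
  have h := algebraMap_mem_placeOfPrime (F := CF K Ω FC) Ω P (1 ⊗ₜ a)
  rw [← CF.inr_apply] at h
  exact h

theorem algebraMap_mem_of_isNonconst (Q : Place Ω (CF K Ω FC)) (hQ : IsNonconst Q)
    (t : Ω ⊗[K] FC) : algebraMap (Ω ⊗[K] FC) (CF K Ω FC) t ∈ Q.toValuationSubring := by
  induction t with
  | zero => simp
  | add x y hx hy => rw [map_add]; exact add_mem hx hy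
  | tmul ω a =>
    have e : (ω ⊗ₜ a : Ω ⊗[K] FC) = algebraMap Ω (Ω ⊗[K] FC) ω * (1 ⊗ₜ a) := by
      rw [Algebra.TensorProduct.algebraMap_apply, Algebra.TensorProduct.tmul_mul_tmul]
      simp
    rw [e, map_mul, ← IsScalarTower.algebraMap_apply]
    refine mul_mem (Q.algebraMap_mem' ω) ?_
    have : a ∈ traceFC Q := by rw [hQ]; exact ValuationSubring.mem_top a
    exact this

theorem exists_placeOfPrime_eq_of_isNonconst [FF1 K FC] (Q : Place Ω (CF K Ω FC))
    (hQ : IsNonconst Q) : ∃ P : HeightOneSpectrum (Ω ⊗[K] FC), placeOfPrime Ω P = Q :=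
  exists_placeOfPrime_eq Q (algebraMap_mem_of_isNonconst Q hQ)

/-- `Ω ⊗ FC` is integrally closed of dimension one: an element without poles at the non-constant places
lies in `Ω ⊗ FC`.  (Proof: separating element `x` of `FC/K`
(`exists_isTranscendenceBasis_and_isSeparable_of_perfectField`), `Ω ⊗ FC` is étale over the PID
`Ω ⊗ K(x)`, `TensorProduct.toIntegralClosure_bijective_of_smooth` or discriminants.) -/
theorem mem_range_ofTensor_of_forall_nonconst [FF1 K FC] (f : CF K Ω FC)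
    (h : ∀ Q : Place Ω (CF K Ω FC), IsNonconst Q → f ∈ Q.toValuationSubring) :
    f ∈ (CF.ofTensor K Ω FC).range := by
  obtain ⟨t, ht⟩ := mem_range_of_forall_placeOfPrime Ω (R := Ω ⊗[K] FC) f
    (fun P => h _ (isNonconst_placeOfPrime P))
  exact ⟨t, ht⟩

/-- the local ring of a non-constant place is a localisation of `Ω ⊗ FC`. -/
theorem exists_fraction_of_isNonconst [FF1 K FC] (Q : Place Ω (CF K Ω FC)) (hQ : IsNonconst Q)
    (f : CF K Ω FC) (hf : f ∈ Q.toValuationSubring) :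
    ∃ a b : Ω ⊗[K] FC, Q.ord (CF.ofTensor K Ω FC b) = 0 ∧ CF.ofTensor K Ω FC b ≠ 0 ∧
      f = CF.ofTensor K Ω FC a / CF.ofTensor K Ω FC b := by
  obtain ⟨P, rfl⟩ := exists_placeOfPrime_eq_of_isNonconst Q hQ
  obtain ⟨n, d, hd, hd0, hfd⟩ := exists_div_of_mem_placeOfPrime Ω P hf
  exact ⟨n, d, placeOfPrime_ord_eq_zero Ω P d hd, hd0, hfd⟩

variable {Φ : Type u} [Field Φ] [Algebra K Φ]

/-- The place of `Φ(C)/Φ` attached to an embedding `ι : FC → Φ` (kernel of `Φ ⊗ FC → Φ`), with its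
evaluation map. -/
theorem exists_genPlace [FF1 K FC] (ι : FC →ₐ[K] Φ) :
    ∃ (Q : Place Φ (CF K Φ FC)) (e : Q.toValuationSubring →ₐ[Φ] Φ), IsNonconst Q ∧ Q.deg = 1 ∧
      (∀ f : Q.toValuationSubring, e f = 0 ↔ f = 0 ∨ 0 < Q.ord (f : CF K Φ FC)) ∧
      (∀ (a : FC) (h : CF.inr K Φ FC a ∈ Q.toValuationSubring), e ⟨_, h⟩ = ι a) := by
  classical
  let μ : Φ ⊗[K] FC →ₐ[Φ] Φ :=
    Algebra.TensorProduct.lift (AlgHom.id Φ Φ) ι (fun _ _ => Commute.all _ _)
  have hμ : ∀ (ω : Φ) (a : FC), μ (ω ⊗ₜ a) = ω * ι a := fun ω a => by simp [μ]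
  have hsurj : Function.Surjective μ := fun ω => ⟨ω ⊗ₜ 1, by simp [hμ]⟩
  have hmax : (RingHom.ker μ).IsMaximal := RingHom.ker_isMaximal_of_surjective _ hsurj
  have hne : RingHom.ker μ ≠ ⊥ := by
    intro hbot
    have hinj : Function.Injective μ := (RingHom.injective_iff_ker_eq_bot _).mpr hbot
    let e₀ : (Φ ⊗[K] FC) ≃ₗ[Φ] Φ := LinearEquiv.ofBijective μ.toLinearMap ⟨hinj, hsurj⟩
    have h1 : Module.rank Φ (Φ ⊗[K] FC) = 1 := by rw [e₀.rank_eq, Module.rank_self]
    rw [Module.rank_baseChange, Cardinal.lift_id] at h1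
    have h2 := Subalgebra.bot_eq_top_of_rank_eq_one h1
    obtain ⟨x, hx⟩ := exists_transcendental (Ω := K) (𝕃 := FC)
    have hx' : x ∈ (⊥ : Subalgebra K FC) := h2 ▸ Algebra.mem_top
    obtain ⟨c, rfl⟩ := Algebra.mem_bot.mp hx'
    exact hx (isAlgebraic_algebraMap c)
  let P : HeightOneSpectrum (Φ ⊗[K] FC) := ⟨RingHom.ker μ, hmax.isPrime, hne⟩
  let Q : Place Φ (CF K Φ FC) := placeOfPrime Φ P
  have hmem : ∀ t : Φ ⊗[K] FC, algebraMap (Φ ⊗[K] FC) (CF K Φ FC) t ∈ Q.toValuationSubring :=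
    fun t => algebraMap_mem_placeOfPrime Φ P t
  -- residue of an element of the kernel
  have hres0 : ∀ t : Φ ⊗[K] FC, μ t = 0 →
      IsLocalRing.residue Q.toValuationSubring ⟨_, hmem t⟩ = 0 := by
    intro t ht
    rcases eq_or_ne t 0 with rfl | ht0
    · have : (⟨algebraMap (Φ ⊗[K] FC) (CF K Φ FC) 0, hmem 0⟩ : Q.toValuationSubring) = 0 :=
        Subtype.ext (map_zero _)
      rw [this, map_zero]
    · have hne0 : (⟨_, hmem t⟩ : Q.toValuationSubring) ≠ 0 := by
        intro h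
        apply ht0
        have := congrArg Subtype.val h
        exact (IsFractionRing.injective (Φ ⊗[K] FC) (CF K Φ FC)) (this.trans (map_zero _).symm)
      rw [Fermat.Agent.S24.FF.DegOne.residue_eq_zero_iff Q hne0]
      exact (placeOfPrime_ord_pos_iff Φ P t ht0).mpr ht
  have hres : ∀ t : Φ ⊗[K] FC, IsLocalRing.residue Q.toValuationSubring ⟨_, hmem t⟩ =
      algebraMap Φ Q.ResidueField (μ t) := by
    intro t
    have h0 := hres0 (t - algebraMap Φ (Φ ⊗[K] FC) (μ t)) (by rw [map_sub, AlgHom.commutes]; simp)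
    have e1 : (⟨_, hmem (t - algebraMap Φ (Φ ⊗[K] FC) (μ t))⟩ : Q.toValuationSubring) =
        ⟨_, hmem t⟩ - algebraMap Φ Q.toValuationSubring (μ t) := by
      apply Subtype.ext
      simp only [map_sub, AddSubgroupClass.coe_sub, Place.coe_algebraMap]
      rw [← IsScalarTower.algebraMap_apply]
    rw [e1, map_sub, sub_eq_zero] at h0
    rw [h0]; rfl
  have key : ∀ f : Q.toValuationSubring, ∃ φ : Φ,
      IsLocalRing.residue Q.toValuationSubring f = algebraMap Φ Q.ResidueField φ := by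
    intro f
    obtain ⟨n, d, hd, hd0, hfd⟩ := exists_div_of_mem_placeOfPrime Φ P f.2
    have hμd : μ d ≠ 0 := hd
    have e1 : f * ⟨_, hmem d⟩ = ⟨_, hmem n⟩ := by
      apply Subtype.ext
      simp only [MulMemClass.coe_mul]
      rw [hfd, div_mul_cancel₀ _ hd0]
    have e2 := congrArg (IsLocalRing.residue Q.toValuationSubring) e1
    rw [map_mul, hres, hres] at e2
    refine ⟨μ n / μ d, ?_⟩
    rw [map_div₀, eq_div_iff (by simpa using hμd)]
    exact e2
  have hbij : Function.Bijective (Algebra.ofId Φ Q.ResidueField) := by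
    refine ⟨(algebraMap Φ Q.ResidueField).injective, fun y => ?_⟩
    obtain ⟨f, rfl⟩ := IsLocalRing.residue_surjective y
    obtain ⟨φ, hφ⟩ := key f
    exact ⟨φ, hφ.symm⟩
  let E : Φ ≃ₐ[Φ] Q.ResidueField := AlgEquiv.ofBijective (Algebra.ofId Φ Q.ResidueField) hbij
  let e : Q.toValuationSubring →ₐ[Φ] Φ :=
    E.symm.toAlgHom.comp (IsScalarTower.toAlgHom Φ Q.toValuationSubring Q.ResidueField)
  have he : ∀ f, e f = E.symm (IsLocalRing.residue Q.toValuationSubring f) := fun _ => rfl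
  refine ⟨Q, e, isNonconst_placeOfPrime P, ?_, ?_, ?_⟩
  · show Module.finrank Φ Q.ResidueField = 1
    rw [← E.toLinearEquiv.finrank_eq, Module.finrank_self]
  · intro f
    rw [he, EmbeddingLike.map_eq_zero_iff]
    rcases eq_or_ne f 0 with rfl | hf
    · simp
    · rw [Fermat.Agent.S24.FF.DegOne.residue_eq_zero_iff Q hf]
      simp [hf]
  · intro a h
    rw [he]
    have : IsLocalRing.residue Q.toValuationSubring ⟨_, h⟩ = E (ι a) := by
      have h1 := hres (1 ⊗ₜ a)
      rw [hμ, one_mul] at h1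
      exact h1
    rw [this, AlgEquiv.symm_apply_apply]

end Fermat.Agent.S26
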