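import Fermat.Agent.S26.Curve.CF
import Fermat.Agent.S26.Curve.CFBasic
import Fermat.Agent.S26.Curve.Const
import Fermat.Agent.S26.Curve.Nonconst

/-! # S26 / M2 : constant field extensions of a curve.

The API (all names unchanged, namespace `Fermat.Agent.S26`) now lives in
* `Curve/CF.lean`      : `CF`, `CF.inr`, `CF.inl`, `CF.ofTensor`, `traceFC`, `IsNonconst` (definitions)
* `Curve/CFBasic.lean` : `CF.ofTensor_tmul`, `CF.exists_lift`, `CF.algHom_ext`, `ff1_CF`, `trdeg_CF`, `essFiniteType_CF`,
                         `bijective_algebraMap_residueField`, `resEquiv`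
* `Curve/Dedekind.lean`: `isDedekindDomain_tensor`, `exists_separating`
* `Curve/Const.lean`   : `constPlace` and its API, `ord_constPlace_sum`, `exists_fraction_of_const`, `exists_constEval`
* `Curve/Nonconst.lean`: `mem_range_ofTensor_of_forall_nonconst`, `exists_fraction_of_isNonconst`, `exists_genPlace` -/
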