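import Fermat.Agent.S26.Curve.CFBasic
import Fermat.Agent.S26.Alg.TwoDim

/-! # S26 / M5 : the Gauss place of `Φ(C)` over a DVR `v` of `Φ`. -/

set_option autoImplicit false
set_option linter.unusedSectionVars false

universe u

namespace Fermat.Agent.S26

open AlgebraicCurve TensorProduct IsLocalRing

namespace Gauss

section coord

variable {K : Type u} [Field K] {A A' M : Type u} [CommRing A] [Algebra K A] [CommRing A'] [Algebra K A']
  [CommRing M] [Algebra K M] {I : Type u} (b : Module.Basis I K M)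

/-- coordinates of `(f ⊗ id) t` -/
theorem repr_map (f : A →ₐ[K] A') (t : A ⊗[K] M) :
    (Algebra.TensorProduct.basis A' b).repr (Algebra.TensorProduct.map f (AlgHom.id K M) t)
      = Finsupp.mapRange f (map_zero f) ((Algebra.TensorProduct.basis A b).repr t) := by
  induction t using TensorProduct.induction_on with
  | zero => simp
  | tmul a m =>
    rw [Algebra.TensorProduct.map_tmul, Algebra.TensorProduct.basis_repr_tmul,
      Algebra.TensorProduct.basis_repr_tmul]
    ext i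
    simp
  | add x y hx hy =>
    rw [map_add, map_add, map_add, hx, hy]
    ext i
    simp

theorem map_injective (f : A →ₐ[K] A') (hf : Function.Injective f) :
    Function.Injective (Algebra.TensorProduct.map f (AlgHom.id K M)) := by
  obtain ⟨I, ⟨b⟩⟩ : ∃ I : Type u, Nonempty (Module.Basis I K M) :=
    ⟨_, ⟨Module.Basis.ofVectorSpace K M⟩⟩
  intro x y hxy
  have h1 := congrArg (Algebra.TensorProduct.basis A' b).repr hxy
  rw [repr_map, repr_map] at h1
  apply (Algebra.TensorProduct.basis A b).repr.injective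
  ext i
  have h2 := DFunLike.congr_fun h1 i
  simp only [Finsupp.mapRange_apply] at h2
  exact hf h2

theorem map_surjective (f : A →ₐ[K] A') (hf : Function.Surjective f) :
    Function.Surjective (Algebra.TensorProduct.map f (AlgHom.id K M)) := by
  intro t
  induction t using TensorProduct.induction_on with
  | zero => exact ⟨0, map_zero _⟩
  | tmul a m =>
    obtain ⟨a', rfl⟩ := hf a
    exact ⟨a' ⊗ₜ m, by simp⟩
  | add x y hx hy =>
    obtain ⟨x', rfl⟩ := hx
    obtain ⟨y', rfl⟩ := hy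
    exact ⟨x' + y', map_add _ _ _⟩

/-- `p ⊗ 1 ∣ t` iff `p` divides all coordinates -/
theorem tmul_one_dvd_iff (p : A) (t : A ⊗[K] M) :
    (p ⊗ₜ[K] (1 : M)) ∣ t ↔ ∀ i, p ∣ (Algebra.TensorProduct.basis A b).repr t i := by
  classical
  have hsm : ∀ s : A ⊗[K] M, (p ⊗ₜ[K] (1 : M)) * s = p • s := by
    intro s
    rw [Algebra.smul_def, Algebra.TensorProduct.algebraMap_apply]
    simp
  constructor
  · rintro ⟨s, rfl⟩ i
    rw [hsm, map_smul]
    exact ⟨_, rfl⟩
  · intro h
    choose d hd using h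
    let c : I →₀ A := Finsupp.onFinset ((Algebra.TensorProduct.basis A b).repr t).support
      (fun i => if (Algebra.TensorProduct.basis A b).repr t i = 0 then 0 else d i) (by
        intro i hi
        rw [Finsupp.mem_support_iff]
        intro h0
        simp [h0] at hi)
    refine ⟨(Algebra.TensorProduct.basis A b).repr.symm c, ?_⟩
    rw [hsm]
    apply (Algebra.TensorProduct.basis A b).repr.injective
    rw [map_smul, LinearEquiv.apply_symm_apply]
    ext i
    simp only [Finsupp.smul_apply, smul_eq_mul, c, Finsupp.onFinset_apply]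
    split_ifs with h0
    · rw [h0, mul_zero]
    · exact hd i

end coord

section main

variable {K : Type u} [Field K] [IsAlgClosed K]
variable {Φ : Type u} [Field Φ] [Algebra K Φ]
variable (v : Place K Φ) (FC : Type u) [Field FC] [Algebra K FC]

/-- `𝒪 ⊗ FC → Φ(C)` -/
noncomputable def j : v.toValuationSubring ⊗[K] FC →ₐ[K] CF K Φ FC :=
  Algebra.TensorProduct.productMap
    ((CF.inl K Φ FC).comp (IsScalarTower.toAlgHom K v.toValuationSubring Φ)) (CF.inr K Φ FC)

/-- `𝒪 ⊗ FC → κ(C)` -/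
noncomputable def r : v.toValuationSubring ⊗[K] FC →ₐ[K] CF K v.ResidueField FC :=
  Algebra.TensorProduct.productMap
    ((CF.inl K v.ResidueField FC).comp
      (IsScalarTower.toAlgHom K v.toValuationSubring v.ResidueField))
    (CF.inr K v.ResidueField FC)

theorem j_tmul (ω : v.toValuationSubring) (a : FC) :
    j v FC (ω ⊗ₜ a) = algebraMap Φ (CF K Φ FC) ω * CF.inr K Φ FC a := by
  simp [j, CF.inl]

theorem r_tmul (ω : v.toValuationSubring) (a : FC) :
    r v FC (ω ⊗ₜ a) = algebraMap v.ResidueField (CF K v.ResidueField FC) (residue _ ω)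
      * CF.inr K v.ResidueField FC a := by
  simp [r, CF.inl]

theorem j_eq (t : v.toValuationSubring ⊗[K] FC) :
    j v FC t = CF.ofTensor K Φ FC (Algebra.TensorProduct.map
      (IsScalarTower.toAlgHom K v.toValuationSubring Φ) (AlgHom.id K FC) t) := by
  induction t using TensorProduct.induction_on with
  | zero => simp
  | tmul ω a =>
    rw [j_tmul, Algebra.TensorProduct.map_tmul, CF.ofTensor_tmul]
    rfl
  | add x y hx hy => rw [map_add, map_add, map_add, hx, hy]

theorem r_eq (t : v.toValuationSubring ⊗[K] FC) :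
    r v FC t = CF.ofTensor K v.ResidueField FC (Algebra.TensorProduct.map
      (IsScalarTower.toAlgHom K v.toValuationSubring v.ResidueField) (AlgHom.id K FC) t) := by
  induction t using TensorProduct.induction_on with
  | zero => simp
  | tmul ω a =>
    rw [r_tmul, Algebra.TensorProduct.map_tmul, CF.ofTensor_tmul]
    rfl
  | add x y hx hy => rw [map_add, map_add, map_add, hx, hy]

theorem j_injective : Function.Injective (j v FC) := by
  intro x y hxy
  rw [j_eq, j_eq] at hxy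
  exact map_injective _ (fun a b hab => Subtype.ext hab) (CF.ofTensor_injective hxy)

variable {v} in
theorem r_eq_zero_iff {π : v.toValuationSubring} (hπ : Irreducible π)
    (t : v.toValuationSubring ⊗[K] FC) : r v FC t = 0 ↔ (π ⊗ₜ[K] (1 : FC)) ∣ t := by
  let b := Module.Basis.ofVectorSpace K FC
  rw [tmul_one_dvd_iff b, r_eq, map_eq_zero_iff _ CF.ofTensor_injective,
    ← map_eq_zero_iff _ (Algebra.TensorProduct.basis v.ResidueField b).repr.injective, repr_map]
  have key : ∀ ω : v.toValuationSubring,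
      (IsScalarTower.toAlgHom K v.toValuationSubring v.ResidueField) ω = 0 ↔ π ∣ ω := by
    intro ω
    have : (IsScalarTower.toAlgHom K v.toValuationSubring v.ResidueField) ω = residue _ ω := rfl
    rw [this, residue_eq_zero_iff, hπ.maximalIdeal_eq, Ideal.mem_span_singleton]
  constructor
  · intro h i
    have := DFunLike.congr_fun h i
    simp only [Finsupp.mapRange_apply, Finsupp.coe_zero, Pi.zero_apply] at this
    exact (key _).mp this
  · intro h
    ext i
    simp only [Finsupp.mapRange_apply, Finsupp.coe_zero, Pi.zero_apply]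
    exact (key _).mpr (h i)

variable {v} in
theorem tmul_one_ne_zero {π : v.toValuationSubring} (hπ : π ≠ 0) : (π ⊗ₜ[K] (1 : FC)) ≠ 0 := by
  intro h
  have h1 := congrArg (j v FC) h
  rw [j_tmul, map_zero, map_one, mul_one] at h1
  have h2 : ((π : v.toValuationSubring) : Φ) = 0 := by
    exact (map_eq_zero_iff _ (algebraMap Φ (CF K Φ FC)).injective).mp h1
  exact hπ (Subtype.ext h2)

variable {v} in
theorem prime_tmul_one {π : v.toValuationSubring} (hπ : Irreducible π) :
    Prime (π ⊗ₜ[K] (1 : FC)) := by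
  rw [← Ideal.span_singleton_prime (tmul_one_ne_zero FC hπ.ne_zero)]
  have : Ideal.span {π ⊗ₜ[K] (1 : FC)} = RingHom.ker (r v FC).toRingHom := by
    ext t
    rw [Ideal.mem_span_singleton, RingHom.mem_ker]
    exact (r_eq_zero_iff FC hπ t).symm
  rw [this]
  exact RingHom.ker_isPrime _

variable {v} in
theorem hmax {π : v.toValuationSubring} (hπ : Irreducible π) :
    ∀ t : v.toValuationSubring ⊗[K] FC, t ≠ 0 → ∃ (n : ℕ) (t' : v.toValuationSubring ⊗[K] FC),
      ¬ (π ⊗ₜ[K] (1 : FC)) ∣ t' ∧ t = (π ⊗ₜ[K] (1 : FC)) ^ n * t' := by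
  intro t ht
  let b := Module.Basis.ofVectorSpace K FC
  have hfin : FiniteMultiplicity (π ⊗ₜ[K] (1 : FC)) t := by
    obtain ⟨i, hi⟩ : ∃ i, (Algebra.TensorProduct.basis v.toValuationSubring b).repr t i ≠ 0 := by
      by_contra hcon
      apply ht
      apply (Algebra.TensorProduct.basis v.toValuationSubring b).repr.injective
      ext i
      by_contra h
      exact hcon ⟨i, by simpa using h⟩
    obtain ⟨n, hn⟩ := FiniteMultiplicity.of_not_isUnit hπ.not_isUnit hi
    refine ⟨n, fun hd => hn ?_⟩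
    have e : (π ⊗ₜ[K] (1 : FC)) ^ (n + 1) = (π ^ (n + 1)) ⊗ₜ[K] (1 : FC) := by
      rw [Algebra.TensorProduct.tmul_pow, one_pow]
    rw [e] at hd
    exact (tmul_one_dvd_iff b _ t).mp hd i
  obtain ⟨c, hc, hc'⟩ := hfin.exists_eq_pow_mul_and_not_dvd
  exact ⟨_, c, hc', hc⟩

variable {v} in
theorem exists_pow_mul_ofTensor {π : v.toValuationSubring} (hπ : Irreducible π) (x : Φ ⊗[K] FC) :
    ∃ (n : ℕ) (t : v.toValuationSubring ⊗[K] FC),
      algebraMap Φ (CF K Φ FC) ((π : Φ) ^ n) * CF.ofTensor K Φ FC x = j v FC t := by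
  have hπ0 : (π : Φ) ≠ 0 := by simpa using hπ.ne_zero
  induction x using TensorProduct.induction_on with
  | zero => exact ⟨0, 0, by simp⟩
  | tmul ω a =>
    have hmem : (π : Φ) ^ (-(v.ord ω)).toNat * ω ∈ v.toValuationSubring := by
      by_cases hω : ω = 0
      · simp [hω]
      apply Fermat.Agent.S24.FF.mem_of_ord_nonneg
      rw [v.ord_mul (pow_ne_zero _ hπ0) hω, Fermat.Agent.S24.FF.ord_pow, v.ord_coe_irreducible hπ]
      have := Int.self_le_toNat (-(v.ord ω))
      omega
    refine ⟨(-(v.ord ω)).toNat, (⟨_, hmem⟩ : v.toValuationSubring) ⊗ₜ a, ?_⟩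
    rw [j_tmul, CF.ofTensor_tmul, ← mul_assoc, ← map_mul]
  | add x y hx hy =>
    obtain ⟨n₁, t₁, h₁⟩ := hx
    obtain ⟨n₂, t₂, h₂⟩ := hy
    refine ⟨n₁ + n₂, ((π ^ n₂) ⊗ₜ 1) * t₁ + ((π ^ n₁) ⊗ₜ 1) * t₂, ?_⟩
    rw [map_add, map_add, map_mul, map_mul, j_tmul, j_tmul, ← h₁, ← h₂, map_one, mul_one, mul_one,
      pow_add, map_mul]
    push_cast
    ring

variable {v} in
theorem hfrac {π : v.toValuationSubring} (hπ : Irreducible π) (f : CF K Φ FC) :
    ∃ a b : v.toValuationSubring ⊗[K] FC, b ≠ 0 ∧ f = j v FC a / j v FC b := by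
  have hπ0 : (π : Φ) ≠ 0 := by simpa using hπ.ne_zero
  obtain ⟨x, y, hy, rfl⟩ := IsFractionRing.div_surjective (A := Φ ⊗[K] FC) f
  have hy0 : CF.ofTensor K Φ FC y ≠ 0 := by
    intro h
    have := (map_eq_zero_iff _ CF.ofTensor_injective).mp h
    exact nonZeroDivisors.ne_zero hy this
  obtain ⟨n, a, ha⟩ := exists_pow_mul_ofTensor FC hπ x
  obtain ⟨m, b, hb⟩ := exists_pow_mul_ofTensor FC hπ y
  have hαn : algebraMap Φ (CF K Φ FC) ((π : Φ) ^ n) ≠ 0 :=
    (map_ne_zero_iff _ (algebraMap Φ (CF K Φ FC)).injective).mpr (pow_ne_zero _ hπ0)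
  have hαm : algebraMap Φ (CF K Φ FC) ((π : Φ) ^ m) ≠ 0 :=
    (map_ne_zero_iff _ (algebraMap Φ (CF K Φ FC)).injective).mpr (pow_ne_zero _ hπ0)
  have e1 : j v FC (((π ^ m) ⊗ₜ 1) * a)
      = algebraMap Φ (CF K Φ FC) ((π : Φ) ^ m) * (algebraMap Φ (CF K Φ FC) ((π : Φ) ^ n)
        * CF.ofTensor K Φ FC x) := by
    rw [map_mul, j_tmul, ha, map_one, mul_one]
    push_cast
    rfl
  have e2 : j v FC (((π ^ n) ⊗ₜ 1) * b)
      = algebraMap Φ (CF K Φ FC) ((π : Φ) ^ n) * (algebraMap Φ (CF K Φ FC) ((π : Φ) ^ m)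
        * CF.ofTensor K Φ FC y) := by
    rw [map_mul, j_tmul, hb, map_one, mul_one]
    push_cast
    rfl
  refine ⟨((π ^ m) ⊗ₜ 1) * a, ((π ^ n) ⊗ₜ 1) * b, ?_, ?_⟩
  · intro h
    have := congrArg (j v FC) h
    rw [e2, map_zero] at this
    exact mul_ne_zero hαn (mul_ne_zero hαm hy0) this
  · rw [e1, e2]
    have : algebraMap (Φ ⊗[K] FC) (CF K Φ FC) x / algebraMap (Φ ⊗[K] FC) (CF K Φ FC) y
        = CF.ofTensor K Φ FC x / CF.ofTensor K Φ FC y := rfl
    rw [this]
    field_simp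

theorem hE (e : CF K v.ResidueField FC) :
    ∃ a b : v.toValuationSubring ⊗[K] FC, r v FC b ≠ 0 ∧ e = r v FC a / r v FC b := by
  obtain ⟨x, y, hy, rfl⟩ := IsFractionRing.div_surjective (A := v.ResidueField ⊗[K] FC) e
  have hsurj : Function.Surjective
      (IsScalarTower.toAlgHom K v.toValuationSubring v.ResidueField) :=
    IsLocalRing.residue_surjective
  obtain ⟨a, rfl⟩ := map_surjective (M := FC) _ hsurj x
  obtain ⟨b, rfl⟩ := map_surjective (M := FC) _ hsurj y
  refine ⟨a, b, ?_, ?_⟩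
  · rw [r_eq]
    intro h
    have := (map_eq_zero_iff _ CF.ofTensor_injective).mp h
    exact nonZeroDivisors.ne_zero hy this
  · rw [r_eq, r_eq]
    rfl

variable {v} in
/-- the Gauss place (depending on the choice of a uniformiser) -/
noncomputable def G₀ {π : v.toValuationSubring} (hπ : Irreducible π) : Place K (CF K Φ FC) where
  toValuationSubring := PrimeVal.valuationSubring (j v FC).toRingHom (j_injective v FC)
    (hfrac FC hπ) _ (prime_tmul_one FC hπ) (hmax FC hπ)
  algebraMap_mem' := fun a => by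
    have : algebraMap K (CF K Φ FC) a = (j v FC).toRingHom (algebraMap K _ a) :=
      ((j v FC).commutes a).symm
    rw [this]
    exact PrimeVal.map_mem_valuationSubring _ _ _ _ _ _ _
  ne_top' := PrimeVal.valuationSubring_ne_top _ _ _ _ _ _
  isPrincipalIdealRing' := PrimeVal.isPrincipalIdealRing _ _ _ _ _ _

end main

end Gauss

section

variable {K : Type u} [Field K] [IsAlgClosed K]
variable {Φ : Type u} [Field Φ] [Algebra K Φ]

open Gauss in
/-- EXISTENCE OF THE GAUSS PLACE (the fields of `GaussData`, unbundled). -/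
theorem exists_gauss (v : Place K Φ) (FC : Type u) [Field FC] [Algebra K FC] :
    ∃ (G : Place K (CF K Φ FC)) (ρ : G.toValuationSubring →ₐ[K] CF K v.ResidueField FC),
      Function.Surjective ρ ∧
      (∀ ω : Φ, G.ord (algebraMap Φ (CF K Φ FC) ω) = v.ord ω) ∧
      ∃ (inr_mem : ∀ a : FC, CF.inr K Φ FC a ∈ G.toValuationSubring),
        (∀ a : FC, ρ ⟨_, inr_mem a⟩ = CF.inr K v.ResidueField FC a) ∧
        (∀ (ω : v.toValuationSubring) (h : algebraMap Φ (CF K Φ FC) ω ∈ G.toValuationSubring),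
          ρ ⟨_, h⟩ = algebraMap v.ResidueField (CF K v.ResidueField FC) (residue _ ω)) := by
  obtain ⟨π, hπ⟩ := IsDiscreteValuationRing.exists_irreducible v.toValuationSubring
  let ι : v.toValuationSubring ⊗[K] FC →+* CF K Φ FC := (j v FC).toRingHom
  have hι : Function.Injective ι := j_injective v FC
  have hfr : ∀ f : CF K Φ FC, ∃ a b : v.toValuationSubring ⊗[K] FC, b ≠ 0 ∧ f = ι a / ι b :=
    hfrac FC hπ
  have hh : Prime (π ⊗ₜ[K] (1 : FC)) := prime_tmul_one FC hπ
  have hm := hmax FC hπ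
  let rr : v.toValuationSubring ⊗[K] FC →+* CF K v.ResidueField FC := (r v FC).toRingHom
  have hr : ∀ b, rr b = 0 ↔ (π ⊗ₜ[K] (1 : FC)) ∣ b := r_eq_zero_iff FC hπ
  have hone : ¬ (π ⊗ₜ[K] (1 : FC)) ∣ 1 := fun hd => hh.not_isUnit (isUnit_of_dvd_one hd)
  set G : Place K (CF K Φ FC) := G₀ FC hπ with hG
  let ρ₀ : G.toValuationSubring →+* CF K v.ResidueField FC :=
    PrimeVal.resHom ι hι hfr _ hh hm rr hr
  have hρ₀ : ∀ (x : G.toValuationSubring) (t : v.toValuationSubring ⊗[K] FC),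
      (x : CF K Φ FC) = ι t → ρ₀ x = rr t := by
    intro x t hx
    have := PrimeVal.resHom_eq ι hι hfr _ hh hm rr hr x t 1 hone (by rw [hx]; simp)
    refine this.trans ?_
    simp
  let ρ : G.toValuationSubring →ₐ[K] CF K v.ResidueField FC :=
    { ρ₀ with
      commutes' := fun c => by
        have h1 : ρ₀ (algebraMap K G.toValuationSubring c) = rr (algebraMap K _ c) :=
          hρ₀ _ _ ((j v FC).commutes c).symm
        exact h1.trans ((r v FC).commutes c) }
  have hρ : ∀ x, ρ x = ρ₀ x := fun _ => rfl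
  have hmemι : ∀ t, ι t ∈ G.toValuationSubring :=
    PrimeVal.map_mem_valuationSubring ι hι hfr _ hh hm
  have hinl : ∀ ω : v.toValuationSubring, algebraMap Φ (CF K Φ FC) ω = ι (ω ⊗ₜ 1) := by
    intro ω
    have := j_tmul v FC ω 1
    rw [map_one, mul_one] at this
    exact this.symm
  have hinr : ∀ a : FC, CF.inr K Φ FC a = ι (1 ⊗ₜ a) := by
    intro a
    have := j_tmul v FC 1 a
    rw [OneMemClass.coe_one, map_one, one_mul] at this
    exact this.symm
  refine ⟨G, ρ, ?_, ?_, fun a => hinr a ▸ hmemι _, ?_, ?_⟩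
  · exact PrimeVal.resHom_surjective ι hι hfr _ hh hm rr hr (hE v FC)
  · intro ω
    by_cases hω : ω = 0
    · simp [hω]
    obtain ⟨u, hu⟩ := v.exists_unit_mul_zpow hω hπ
    have hπ0 : (π : Φ) ≠ 0 := by simpa using hπ.ne_zero
    have hu0 : ((u : v.toValuationSubring) : Φ) ≠ 0 := by simp
    have inj := (algebraMap Φ (CF K Φ FC)).injective
    have h1 : G.ord (algebraMap Φ (CF K Φ FC) (π : Φ)) = 1 := by
      have := G.ord_coe_irreducible (PrimeVal.irreducible_unif ι hι hfr _ hh hm)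
      rw [hinl]
      exact this
    have h2 : G.ord (algebraMap Φ (CF K Φ FC) ((u : v.toValuationSubring) : Φ)) = 0 := by
      have a1 := Fermat.Agent.S24.FF.ord_nonneg_of_mem G
        (hinl (u : v.toValuationSubring) ▸ hmemι _)
      have a2 := Fermat.Agent.S24.FF.ord_nonneg_of_mem G
        (hinl ((u⁻¹ : (v.toValuationSubring)ˣ) : v.toValuationSubring) ▸ hmemι _)
      have e : algebraMap Φ (CF K Φ FC)
          (((u⁻¹ : (v.toValuationSubring)ˣ) : v.toValuationSubring) : Φ)
          = (algebraMap Φ (CF K Φ FC) ((u : v.toValuationSubring) : Φ))⁻¹ := by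
        rw [← map_inv₀]
        congr 1
        have h3 : ((u : v.toValuationSubring) : Φ)
            * (((u⁻¹ : (v.toValuationSubring)ˣ) : v.toValuationSubring) : Φ) = 1 := by
          exact congrArg Subtype.val u.mul_inv
        exact eq_inv_of_mul_eq_one_right h3
      rw [e, G.ord_inv] at a2
      omega
    conv_lhs => rw [hu]
    rw [map_mul, map_zpow₀, G.ord_mul ((map_ne_zero_iff _ inj).mpr hu0)
      (zpow_ne_zero _ ((map_ne_zero_iff _ inj).mpr hπ0)), G.ord_zpow, h1, h2]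
    ring
  · intro a
    rw [hρ, hρ₀ _ (1 ⊗ₜ a) (hinr a)]
    have := r_tmul v FC 1 a
    rw [map_one, map_one, one_mul] at this
    exact this
  · intro ω h
    rw [hρ, hρ₀ _ (ω ⊗ₜ 1) (hinl ω)]
    have := r_tmul v FC ω 1
    rw [map_one, mul_one] at this
    exact this

section anyGauss

variable (v : Place K Φ) (FC : Type u) [Field FC] [Algebra K FC]
  (G : Place K (CF K Φ FC)) (ρ : G.toValuationSubring →ₐ[K] CF K v.ResidueField FC)
  (ord_inl : ∀ ω : Φ, G.ord (algebraMap Φ (CF K Φ FC) ω) = v.ord ω)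
  (inr_mem : ∀ a : FC, CF.inr K Φ FC a ∈ G.toValuationSubring)
  (ρ_inr : ∀ a : FC, ρ ⟨_, inr_mem a⟩ = CF.inr K v.ResidueField FC a)
  (ρ_inl : ∀ (ω : v.toValuationSubring) (h : algebraMap Φ (CF K Φ FC) ω ∈ G.toValuationSubring),
    ρ ⟨_, h⟩ = algebraMap v.ResidueField (CF K v.ResidueField FC) (residue _ ω))

namespace Gauss

include ord_inl in
theorem inl_mem (ω : v.toValuationSubring) :
    algebraMap Φ (CF K Φ FC) ω ∈ G.toValuationSubring := by
  apply Fermat.Agent.S24.FF.mem_of_ord_nonneg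
  rw [ord_inl]
  exact Fermat.Agent.S24.FF.ord_nonneg_of_mem v ω.2

include ord_inl inr_mem in
theorem j_mem (t : v.toValuationSubring ⊗[K] FC) : j v FC t ∈ G.toValuationSubring := by
  induction t using TensorProduct.induction_on with
  | zero => simp
  | tmul ω a =>
    rw [j_tmul]
    exact mul_mem (inl_mem v FC G ord_inl ω) (inr_mem a)
  | add x y hx hy => rw [map_add]; exact add_mem hx hy

include ρ_inr ρ_inl in
theorem ρ_j (t : v.toValuationSubring ⊗[K] FC) :
    ρ ⟨_, j_mem v FC G ord_inl inr_mem t⟩ = r v FC t := by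
  induction t using TensorProduct.induction_on with
  | zero =>
    have : (⟨_, j_mem v FC G ord_inl inr_mem 0⟩ : G.toValuationSubring) = 0 :=
      Subtype.ext (map_zero _)
    rw [this, map_zero, map_zero]
  | tmul ω a =>
    have : (⟨_, j_mem v FC G ord_inl inr_mem (ω ⊗ₜ a)⟩ : G.toValuationSubring)
        = ⟨_, inl_mem v FC G ord_inl ω⟩ * ⟨_, inr_mem a⟩ := Subtype.ext (j_tmul v FC ω a)
    rw [this, map_mul, ρ_inl, ρ_inr, r_tmul]
  | add x y hx hy =>
    have : (⟨_, j_mem v FC G ord_inl inr_mem (x + y)⟩ : G.toValuationSubring)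
        = ⟨_, j_mem v FC G ord_inl inr_mem x⟩ + ⟨_, j_mem v FC G ord_inl inr_mem y⟩ :=
      Subtype.ext (map_add _ _ _)
    rw [this, map_add, hx, hy, map_add]

include ord_inl ρ_inl in
/-- `ρ` kills the maximal ideal -/
theorem ρ_eq_zero_of_ord_pos (x : G.toValuationSubring) (hx : 0 < G.ord (x : CF K Φ FC)) :
    ρ x = 0 := by
  obtain ⟨π, hπ⟩ := IsDiscreteValuationRing.exists_irreducible v.toValuationSubring
  have hπ0 : (π : Φ) ≠ 0 := by simpa using hπ.ne_zero
  have hα0 : algebraMap Φ (CF K Φ FC) (π : Φ) ≠ 0 :=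
    (map_ne_zero_iff _ (algebraMap Φ (CF K Φ FC)).injective).mpr hπ0
  have hx0 : (x : CF K Φ FC) ≠ 0 := Fermat.Agent.S24.FF.ne_zero_of_ord_ne_zero G hx.ne'
  have h1 : G.ord (algebraMap Φ (CF K Φ FC) (π : Φ)) = 1 := by
    rw [ord_inl, v.ord_coe_irreducible hπ]
  have hy : (x : CF K Φ FC) * (algebraMap Φ (CF K Φ FC) (π : Φ))⁻¹ ∈ G.toValuationSubring := by
    apply Fermat.Agent.S24.FF.mem_of_ord_nonneg
    rw [G.ord_mul hx0 (inv_ne_zero hα0), G.ord_inv, h1]
    omega
  have e : x = ⟨_, inl_mem v FC G ord_inl π⟩ * ⟨_, hy⟩ := by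
    apply Subtype.ext
    show (x : CF K Φ FC) = algebraMap Φ (CF K Φ FC) (π : Φ)
      * ((x : CF K Φ FC) * (algebraMap Φ (CF K Φ FC) (π : Φ))⁻¹)
    field_simp
  rw [e, map_mul, ρ_inl]
  have : residue v.toValuationSubring π = 0 := by
    rw [residue_eq_zero_iff, hπ.maximalIdeal_eq]
    exact Ideal.mem_span_singleton_self π
  rw [this, map_zero, zero_mul]

include ord_inl ρ_inr ρ_inl in
theorem ord_j_eq_zero {π : v.toValuationSubring} (hπ : Irreducible π)
    {t : v.toValuationSubring ⊗[K] FC} (ht : ¬ (π ⊗ₜ[K] (1 : FC)) ∣ t) :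
    G.ord (j v FC t) = 0 := by
  have h1 := Fermat.Agent.S24.FF.ord_nonneg_of_mem G (j_mem v FC G ord_inl inr_mem t)
  rcases h1.lt_or_eq with h | h
  · exfalso
    have h2 := ρ_eq_zero_of_ord_pos v FC G ρ ord_inl ρ_inl ⟨_, j_mem v FC G ord_inl inr_mem t⟩ h
    rw [ρ_j v FC G ρ ord_inl inr_mem ρ_inr ρ_inl] at h2
    exact ht ((r_eq_zero_iff FC hπ t).mp h2)
  · exact h.symm

end Gauss

open Gauss in
include ord_inl ρ_inr ρ_inl in
/-- For ANY Gauss datum, `O_G` is the localisation of `𝒪 ⊗ FC` at `(π)`. -/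
theorem exists_fraction_of_gauss (f : CF K Φ FC) (hf : f ∈ G.toValuationSubring) :
    ∃ a b : v.toValuationSubring ⊗[K] FC,
      G.ord (j v FC b) = 0 ∧ j v FC b ≠ 0 ∧ f = j v FC a / j v FC b := by
  obtain ⟨π, hπ⟩ := IsDiscreteValuationRing.exists_irreducible v.toValuationSubring
  have hh : Prime (π ⊗ₜ[K] (1 : FC)) := prime_tmul_one FC hπ
  have hone : ¬ (π ⊗ₜ[K] (1 : FC)) ∣ 1 := fun hd => hh.not_isUnit (isUnit_of_dvd_one hd)
  by_cases hf0 : f = 0
  · refine ⟨0, 1, ?_, ?_, ?_⟩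
    · simp
    · simp
    · simp [hf0]
  obtain ⟨n, a, b, ha, hb, hfab⟩ := PrimeVal.exists_eq_zpow_mul (j v FC).toRingHom
    (j_injective v FC) (hfrac FC hπ) _ hh (hmax FC hπ) hf0
  have hfab' : f = j v FC (π ⊗ₜ 1) ^ n * (j v FC a / j v FC b) := hfab
  have ha0 : j v FC a ≠ 0 :=
    PrimeVal.map_ne_zero (j v FC).toRingHom (j_injective v FC) (PrimeVal.ne_zero_of_not_dvd _ ha)
  have hb0 : j v FC b ≠ 0 :=
    PrimeVal.map_ne_zero (j v FC).toRingHom (j_injective v FC) (PrimeVal.ne_zero_of_not_dvd _ hb)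
  have hh0 : j v FC (π ⊗ₜ 1) ≠ 0 :=
    PrimeVal.map_ne_zero (j v FC).toRingHom (j_injective v FC) hh.ne_zero
  have oa := ord_j_eq_zero v FC G ρ ord_inl inr_mem ρ_inr ρ_inl hπ ha
  have ob := ord_j_eq_zero v FC G ρ ord_inl inr_mem ρ_inr ρ_inl hπ hb
  have oh : G.ord (j v FC (π ⊗ₜ 1)) = 1 := by
    rw [j_tmul, map_one, mul_one, ord_inl, v.ord_coe_irreducible hπ]
  have hn : 0 ≤ n := by
    have h1 := Fermat.Agent.S24.FF.ord_nonneg_of_mem G hf
    rw [hfab', G.ord_mul (zpow_ne_zero _ hh0) (div_ne_zero ha0 hb0), G.ord_zpow,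
      Fermat.Agent.S24.FF.ord_div G ha0 hb0, oa, ob, oh] at h1
    omega
  obtain ⟨k, rfl⟩ := Int.eq_ofNat_of_zero_le hn
  refine ⟨(π ⊗ₜ 1) ^ k * a, b, ob, hb0, ?_⟩
  rw [hfab', map_mul, map_pow, zpow_natCast, mul_div_assoc]

end anyGauss

end

end Fermat.Agent.S26
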