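import Fermat.Agent.S26.Curve.Points
import Fermat.Agent.S26.FF.Nonspecial

/-! # S26 / M3 : the non-special divisor `E` (uniform in the constant field `Ω`). -/

set_option autoImplicit false

universe u

namespace Fermat.Agent.S26

open AlgebraicCurve TensorProduct

variable {K : Type u} [Field K] [IsAlgClosed K]
variable {FC : Type u} [Field FC] [Algebra K FC]
variable {Ω : Type u} [Field Ω] [Algebra K Ω]

namespace Nonspecial

theorem inr_mem_of_isNonconst (Q : Place Ω (CF K Ω FC)) (hQ : IsNonconst Q) (a : FC) :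
    CF.inr K Ω FC a ∈ Q.toValuationSubring := by
  have h : a ∈ traceFC Q := by rw [hQ]; exact ValuationSubring.mem_top a
  exact h

theorem ord_inr_of_isNonconst (Q : Place Ω (CF K Ω FC)) (hQ : IsNonconst Q) (a : FC) :
    Q.ord (CF.inr K Ω FC a) = 0 := by
  have h1 := Fermat.Agent.S24.FF.ord_nonneg_of_mem Q (inr_mem_of_isNonconst Q hQ a)
  have h2 := Fermat.Agent.S24.FF.ord_nonneg_of_mem Q (inr_mem_of_isNonconst Q hQ a⁻¹)
  rw [map_inv₀, Q.ord_inv] at h2
  omega

theorem inr_mem_LSpace_constDiv [FF1 K FC] {D : Divisor K FC} {f : FC} (hf : f ∈ LSpace D) :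
    CF.inr K Ω FC f ∈ LSpace (constDiv Ω D) := by
  rcases hf with hf | hf
  · exact Or.inl (by rw [hf, map_zero])
  refine Or.inr fun Q => ?_
  rcases exists_eq_constPlace_or_isNonconst Q with ⟨c, rfl⟩ | hQ
  · rw [ord_constPlace_inr, constDiv_constPlace]
    exact hf c
  · rw [ord_inr_of_isNonconst Q hQ, constDiv_of_isNonconst Ω D Q hQ, add_zero]

theorem linearIndependent_inr {ι : Type*} {b : ι → FC} (hb : LinearIndependent K b) :
    LinearIndependent Ω (fun i => CF.inr K Ω FC (b i)) := by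
  have h1 : LinearIndependent Ω (fun i => (1 : Ω) ⊗ₜ[K] b i) :=
    Module.Flat.linearIndependent_one_tmul hb
  have h2 := h1.map' (CF.ofTensor K Ω FC).toLinearMap
    (LinearMap.ker_eq_bot.mpr CF.ofTensor_injective)
  have h3 : (fun i => CF.inr K Ω FC (b i))
      = (CF.ofTensor K Ω FC).toLinearMap ∘ fun i => (1 : Ω) ⊗ₜ[K] b i := by
    funext i
    show _ = CF.ofTensor K Ω FC ((1 : Ω) ⊗ₜ[K] b i)
    rw [CF.ofTensor_tmul, map_one, one_mul]
  rw [h3]
  exact h2

theorem finrank_LSpace_le_constDiv [FF1 K FC] (D : Divisor K FC) :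
    Module.finrank K (LSpace D) ≤ Module.finrank Ω (LSpace (constDiv Ω D)) := by
  have hfin := finite_LSpace (Ω := K) D
  have hfin' := finite_LSpace (Ω := Ω) (constDiv Ω D)
  let b := Module.finBasis K (LSpace D)
  have hb : LinearIndependent K (fun i => ((b i : LSpace D) : FC)) :=
    b.linearIndependent.map' (LSpace D).subtype (Submodule.ker_subtype _)
  have h1 : LinearIndependent Ω (fun i => CF.inr K Ω FC ((b i : LSpace D) : FC)) :=
    linearIndependent_inr hb
  have h2 : LinearIndependent Ω (fun i =>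
      (⟨CF.inr K Ω FC ((b i : LSpace D) : FC), inr_mem_LSpace_constDiv (b i).2⟩ :
        LSpace (constDiv Ω D))) := by
    apply LinearIndependent.of_comp (LSpace (constDiv Ω D)).subtype
    exact h1
  have := h2.fintype_card_le_finrank
  simpa using this

theorem degree_constDiv [FF1 K FC] (D : Divisor K FC) :
    Divisor.degree (constDiv Ω D) = Divisor.degree D := by
  classical
  unfold constDiv
  induction D using Finsupp.induction_linear with
  | zero => simp
  | add D₁ D₂ h₁ h₂ => rw [Finsupp.mapDomain_add, map_add, map_add, h₁, h₂]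
  | single c n =>
    rw [Finsupp.mapDomain_single, Divisor.degree_single, Divisor.degree_single, deg_constPlace,
      deg_eq_one_of_isAlgClosed]

theorem constDiv_nsmul [FF1 K FC] (m : ℕ) (D : Divisor K FC) :
    constDiv Ω (m • D) = m • constDiv Ω D := by
  unfold constDiv
  exact (Finsupp.mapDomain.addMonoidHom (constPlace Ω)).map_nsmul m D

end Nonspecial

open Nonspecial

/-- Riemann's inequality for `Ω(C)/Ω` with the genus of `C/K`. -/
theorem riemann_inequality_CF [FF1 K FC] {g : ℤ}
    (hg : ∀ D : Divisor K FC, Divisor.degree D + 1 - g ≤ Module.finrank K (LSpace D))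
    (X : Divisor Ω (CF K Ω FC)) :
    Divisor.degree X + 1 - g ≤ Module.finrank Ω (LSpace X) := by
  obtain ⟨c⟩ := nonempty_place (Ω := K) (𝕃 := FC)
  have hdeg : Divisor.degree (constDiv Ω (Finsupp.single c (1 : ℤ))) = 1 := by
    rw [degree_constDiv, Divisor.degree_single, deg_eq_one_of_isAlgClosed]; simp
  have key := le_finrank_LSpace_of_forall_nsmul (Ω := Ω) (constDiv Ω (Finsupp.single c (1 : ℤ)))
    (by rw [hdeg]; exact one_pos) (1 - g) (fun m => by
      rw [hdeg, ← constDiv_nsmul]
      have h1 := hg (m • Finsupp.single c (1 : ℤ))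
      rw [map_nsmul, Divisor.degree_single, deg_eq_one_of_isAlgClosed] at h1
      have h2 : (Module.finrank K (LSpace (m • Finsupp.single c (1 : ℤ))) : ℤ)
          ≤ Module.finrank Ω (LSpace (constDiv Ω (m • Finsupp.single c (1 : ℤ)))) := by
        exact_mod_cast finrank_LSpace_le_constDiv _
      simp only [nsmul_eq_mul] at h1
      push_cast at h1
      linarith) X
  linarith

/-- M3.  The non-special divisor.  `E ≥ 0` supported outside a given finite set, of degree the genus, with
`L_Ω(E) = Ω` and `L_Ω(G + E) ≠ 0` whenever `deg G ≥ 0`, for EVERY constant field `Ω`. -/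
theorem exists_nonspecial [FF1 K FC] (S : Finset (Place K FC)) :
    ∃ E : Divisor K FC, (∀ c, 0 ≤ E c) ∧ (∀ c ∈ S, E c = 0) ∧
      ∀ (Ω : Type u) [Field Ω] [Algebra K Ω],
        (∀ u ∈ LSpace (constDiv Ω E), u ∈ (algebraMap Ω (CF K Ω FC)).range) ∧
        (∀ G : Divisor Ω (CF K Ω FC), 0 ≤ Divisor.degree G → LSpace (G + constDiv Ω E) ≠ ⊥) := by
  obtain ⟨g, c, hg1, hg2⟩ := exists_genus (Ω := K) (𝕃 := FC) finrank_LSpace_zero_of_isAlgClosed
  obtain ⟨E, hE0, hES, hEdeg, hE1⟩ := exists_nonspecial_divisor (Ω := K) (𝕃 := FC) (g := g) (c := c)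
    (fun D hD => (hg2 D hD).le) (S : Set (Place K FC)) S.finite_toSet
  refine ⟨E, hE0, fun c hc => hES c hc, fun Ω _ _ => ⟨fun u hu => ?_, fun G hG hbot => ?_⟩⟩
  · have hspan := mem_span_of_mem_LSpace_constDiv Ω E u hu
    have hle : Submodule.span Ω ((CF.inr K Ω FC) '' (LSpace E : Set FC))
        ≤ LinearMap.range (Algebra.linearMap Ω (CF K Ω FC)) := by
      rw [Submodule.span_le]
      rintro _ ⟨f, hf, rfl⟩
      obtain ⟨a, rfl⟩ := mem_range_algebraMap_of_finrank_LSpace_eq_one hE0 hE1 hf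
      refine ⟨algebraMap K Ω a, ?_⟩
      rw [Algebra.linearMap_apply, AlgHom.commutes, ← IsScalarTower.algebraMap_apply]
    obtain ⟨ω, hω⟩ := hle hspan
    exact ⟨ω, hω⟩
  · have h1 := riemann_inequality_CF (Ω := Ω) (g := (g : ℤ)) hg1 (G + constDiv Ω E)
    rw [hbot, finrank_bot, map_add, degree_constDiv, hEdeg] at h1
    push_cast at h1
    omega

end Fermat.Agent.S26
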