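import Fermat.Agent.S26.Curve.Defs

/-! # S26 / M2-M3 : rational points of `C_Φ`, constant divisors, the non-special divisor `E`. REQUIRED API. -/

set_option autoImplicit false

universe u

namespace Fermat.Agent.S26

open AlgebraicCurve TensorProduct

variable {K : Type u} [Field K] [IsAlgClosed K]
variable {Φ FC : Type u} [Field Φ] [Algebra K Φ] [Field FC] [Algebra K FC]

/-- A `Φ`-rational point of the curve `C`: a constant point or an embedding `FC → Φ`. -/
inductive CPt (K : Type u) [Field K] (FC Φ : Type u) [Field Φ] [Algebra K Φ] [Field FC] [Algebra K FC] :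
    Type u
  | const (c : Place K FC) : CPt K FC Φ
  | gen (ι : FC →ₐ[K] Φ) : CPt K FC Φ

namespace CPt

/-- the place of `Φ(C)/Φ` defined by a rational point -/
noncomputable def place [FF1 K FC] : CPt K FC Φ → Place Φ (CF K Φ FC)
  | const c => constPlace Φ c
  | gen ι => (exists_genPlace ι).choose

/-- evaluation of functions at a rational point -/
noncomputable def eval [FF1 K FC] : (p : CPt K FC Φ) → p.place.toValuationSubring →ₐ[Φ] Φ
  | const c => (exists_constEval c).choose
  | gen ι => (exists_genPlace ι).choose_spec.choose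

theorem eval_eq_zero_iff [FF1 K FC] (p : CPt K FC Φ) (f : p.place.toValuationSubring) :
    p.eval f = 0 ↔ f = 0 ∨ 0 < p.place.ord (f : CF K Φ FC) := by
  cases p with
  | const c => exact (exists_constEval c).choose_spec.1 f
  | gen ι => exact (exists_genPlace ι).choose_spec.choose_spec.2.2.1 f

theorem deg_place [FF1 K FC] (p : CPt K FC Φ) : p.place.deg = 1 := by
  cases p with
  | const c => exact deg_constPlace c
  | gen ι => exact (exists_genPlace ι).choose_spec.choose_spec.2.1

theorem place_const [FF1 K FC] (c : Place K FC) :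
    (CPt.const c : CPt K FC Φ).place = constPlace Φ c := rfl

theorem isNonconst_place_gen [FF1 K FC] (ι : FC →ₐ[K] Φ) : IsNonconst (CPt.gen ι : CPt K FC Φ).place :=
  (exists_genPlace ι).choose_spec.choose_spec.1

theorem inr_mem_place_gen [FF1 K FC] (ι : FC →ₐ[K] Φ) (a : FC) :
    CF.inr K Φ FC a ∈ (CPt.gen ι : CPt K FC Φ).place.toValuationSubring := by
  have h : a ∈ traceFC (CPt.gen ι : CPt K FC Φ).place := by
    rw [isNonconst_place_gen ι]; exact ValuationSubring.mem_top a
  exact h

theorem eval_gen_inr [FF1 K FC] (ι : FC →ₐ[K] Φ) (a : FC)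
    (h : CF.inr K Φ FC a ∈ (CPt.gen ι : CPt K FC Φ).place.toValuationSubring) :
    (CPt.gen ι : CPt K FC Φ).eval ⟨_, h⟩ = ι a :=
  (exists_genPlace ι).choose_spec.choose_spec.2.2.2 a h

theorem eval_const_inr [FF1 K FC] (c : Place K FC) (a : c.toValuationSubring)
    (h : CF.inr K Φ FC a ∈ (CPt.const c : CPt K FC Φ).place.toValuationSubring) :
    (CPt.const c : CPt K FC Φ).eval ⟨_, h⟩ = algebraMap K Φ (resEquiv c (IsLocalRing.residue _ a)) :=
  (exists_constEval c).choose_spec.2 a h

/-- the residue class of `f` at `p` is the constant `f(p)` -/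
theorem residue_eq_algebraMap_eval [FF1 K FC] (p : CPt K FC Φ) (f : p.place.toValuationSubring) :
    IsLocalRing.residue p.place.toValuationSubring f = algebraMap Φ p.place.ResidueField (p.eval f) := by
  have h0 : p.eval (f - algebraMap Φ p.place.toValuationSubring (p.eval f)) = 0 := by
    rw [map_sub, AlgHom.commutes]; simp
  have h1 : IsLocalRing.residue p.place.toValuationSubring
      (f - algebraMap Φ p.place.toValuationSubring (p.eval f)) = 0 := by
    rcases (p.eval_eq_zero_iff _).mp h0 with h | h
    · rw [h, map_zero]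
    · by_cases hne : f - algebraMap Φ p.place.toValuationSubring (p.eval f) = 0
      · rw [hne, map_zero]
      · exact (Fermat.Agent.S24.FF.DegOne.residue_eq_zero_iff p.place hne).mpr h
  rw [map_sub, sub_eq_zero] at h1
  rw [h1]; rfl

theorem bijective_algebraMap_residueField [FF1 K FC] (p : CPt K FC Φ) :
    Function.Bijective (algebraMap Φ p.place.ResidueField) := by
  refine ⟨(algebraMap Φ p.place.ResidueField).injective, fun y => ?_⟩
  obtain ⟨f, rfl⟩ := IsLocalRing.residue_surjective y
  exact ⟨p.eval f, (p.residue_eq_algebraMap_eval f).symm⟩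

end CPt

/-- the constant divisor `E_Ω` -/
noncomputable def constDiv [FF1 K FC] (Ω : Type u) [Field Ω] [Algebra K Ω] (E : Divisor K FC) :
    Divisor Ω (CF K Ω FC) := E.mapDomain (constPlace Ω)

theorem constDiv_constPlace [FF1 K FC] (Ω : Type u) [Field Ω] [Algebra K Ω] (E : Divisor K FC)
    (c : Place K FC) : constDiv Ω E (constPlace Ω c) = E c :=
  Finsupp.mapDomain_apply constPlace_injective E c

theorem constDiv_of_isNonconst [FF1 K FC] (Ω : Type u) [Field Ω] [Algebra K Ω] (E : Divisor K FC)
    (Q : Place Ω (CF K Ω FC)) (hQ : IsNonconst Q) : constDiv Ω E Q = 0 := by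
  apply Finsupp.mapDomain_of_notMem_range
  rintro ⟨c, rfl⟩
  rw [IsNonconst, traceFC_constPlace] at hQ
  exact c.ne_top' hQ

/-- `L_Ω(E_Ω) = Ω ⊗ L_K(E)` (only `⊆` is needed): -/
theorem mem_span_of_mem_LSpace_constDiv [FF1 K FC] (Ω : Type u) [Field Ω] [Algebra K Ω]
    (E : Divisor K FC) (f : CF K Ω FC) (hf : f ∈ LSpace (constDiv Ω E)) :
    f ∈ Submodule.span Ω ((CF.inr K Ω FC) '' (LSpace E : Set FC)) := by
  classical
  rcases eq_or_ne f 0 with rfl | hf0
  · exact zero_mem _
  have hf' := (mem_LSpace.mp hf).resolve_left hf0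
  obtain ⟨z, rfl⟩ := mem_range_ofTensor_of_forall_nonconst f (fun Q hQ => by
    have := hf' Q
    rw [constDiv_of_isNonconst Ω E Q hQ, add_zero] at this
    exact Fermat.Agent.S24.FF.mem_of_ord_nonneg Q this)
  let b := Module.Basis.ofVectorSpace K Ω
  obtain ⟨a, rfl⟩ := TensorProduct.eq_repr_basis_left b z
  have e1 : (CF.ofTensor K Ω FC).toRingHom (a.sum fun i n => b i ⊗ₜ[K] n) =
      ∑ i ∈ a.support, algebraMap Ω (CF K Ω FC) (b i) * CF.inr K Ω FC (a i) := by
    rw [Finsupp.sum, map_sum]
    exact Finset.sum_congr rfl fun i _ => CF.ofTensor_tmul _ _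
  rw [e1] at hf0 hf' ⊢
  have hli : LinearIndependent K (fun i : a.support => b i) :=
    b.linearIndependent.comp _ Subtype.val_injective
  refine Submodule.sum_mem _ fun i hi => ?_
  rw [← Algebra.smul_def]
  refine Submodule.smul_mem _ _ (Submodule.subset_span ⟨a i, ?_, rfl⟩)
  by_cases hai : a i = 0
  · exact Or.inl hai
  refine Or.inr fun c => ?_
  have h1 := hf' (constPlace Ω c)
  rw [constDiv_constPlace] at h1
  have h2 := ord_constPlace_sum c a.support (fun i => b i) hli a (-E c) hf0 (by omega) i hi
  have h3 := h2.resolve_left hai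
  omega

-- M3 (`exists_nonspecial`, the non-special divisor) is PROVED in `Fermat/Agent/S26/Curve/Nonspecial.lean`
-- (same name, same statement): `import Fermat.Agent.S26.Curve.Nonspecial` to use it.

end Fermat.Agent.S26
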