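import Fermat.Agent.S26.Curve.Spec.Defs
import Fermat.Agent.S26.Curve.Spec.TV
import Fermat.Agent.S26.Curve.Spec.Gauss
import Fermat.Agent.S26.Curve.Spec.BP
import Fermat.Agent.S26.Curve.Spec.BPStruct
import Fermat.Agent.S26.Curve.Spec.Imult
import Fermat.Agent.S26.Curve.Spec.ConstS2
import Fermat.Agent.S26.Curve.Spec.CentreA
import Fermat.Agent.S26.Curve.Spec.Centre
import Fermat.Agent.S26.Curve.Spec.SectionA
import Fermat.Agent.S26.Curve.Spec.Section
import Fermat.Agent.S26.Curve.Spec.JMult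

/-! # S26 / M5 : specialisation of divisors of `C_Φ` along a DVR `v : Place K Φ`.  UMBRELLA FILE (all names as before).

`𝒪 = v.toValuationSubring`, `κ = v.ResidueField`, `𝕃 = CF K Φ FC`, `𝕃̄ = CF K κ FC`.
For a place `P` of `𝕃̄/κ` let `R_P = O_P ∩ FC` (`= FC` or `O_{C,c}`) and
`B_P = (𝒪 ⊗[K] R_P)_{𝔫_P}`, `𝔫_P` = kernel of `𝒪 ⊗ R_P → κ(P)`: the local ring of the arithmetic surface
`C × Spec 𝒪` at the closed point `P` of the special fibre.  `B_P` is a noetherian local domain with fraction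
field `𝕃`, `π` (uniformiser of `𝒪`) is a prime element, `B_P/π = O_P` is a DVR.
ELEMENTARY LEMMA: every nonzero prime `𝔮 ∌ π` of `B_P` is principal, `𝔮 = (h)`, and `(B_P)_𝔮` is the
valuation ring of a place `Q` of `𝕃/Φ` ("`Q` passes through `P`"); `imult v Q P := ord_P (h mod π)`.

* `Spec/Defs`     : `KVal`, `RP`, `piO`, `TV v V = 𝒪 ⊗ V`, `TV.toCF`, `TV.toCFbar`, `TV.pi`
* `Spec/TV`       : properties of `TV v V`
* `Spec/Gauss`    : `GaussData`, `gauss`, `gaussRed`, `exists_fraction_gauss`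
* `Spec/BP`       : `TP`, `nP`, `BP`, `BP.toCF`, `BP.red`
* `Spec/BPStruct` : `B_P` is a noetherian factorial local domain, `B_P ⊆ O_G`
* `Alg/TwoDim`, `Alg/PrimePlace`, `Alg/Through` : the abstract algebra
* `Spec/Imult`    : `imult`, (S4), (S1)
* `Spec/ConstS2`  : (S2)
* `Spec/CentreA`, `Spec/Centre` : (S3)
* `Spec/SectionA`, `Spec/Section` : `redCPt`, `secBP`
* `Spec/JMult`    : (J) -/
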